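/-
S55 / 32-SECOND-INEQ (helper74): ABSTRACT CORE of the algebraic second inequality
(Cassels-Froehlich VII.9, Neukirch ANT VI.4.4) for Kummer extensions of prime degree `p`.

Model independent: a "field with places" is given by multiplicative local groups `A v ⊇ U v`
and homomorphisms `ι v : Kˣ →* A v`.  Ideles are the restricted product inside `∀ v, A v`.
All arithmetic inputs (class group generation, S-unit theorem, local `p`-th power indices +
product formula, tame local units, and the two consequences `CL`, `FI` of the FIRST inequality)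
are hypotheses; the conclusion `relIndex_sup_dvd` is `(J : Kˣ · Nm) ∣ p` for every subgroup `Nm`
of the ideles containing the obvious local norms of `K(a^{1/p})`.
-/
import Mathlib

set_option autoImplicit false

namespace Fermat.Agent.S55.SecondIneq74

section Generalities

variable {G : Type*} [CommGroup G]

/-- index lemma: `(A ∩ B : A' ∩ B) · (AB : A'B) = (A : A')` for `A' ≤ A`. -/
theorem relIndex_inf_mul_relIndex_sup (J E B : Subgroup G) (hEJ : E ≤ J) :
    (E ⊓ B).relIndex (J ⊓ B) * (E ⊔ B).relIndex (J ⊔ B) = E.relIndex J := by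
  have h1 : (E ⊔ B).relIndex (J ⊔ B) = (E ⊔ B ⊓ J).relIndex J := by
    have e1 : J ⊔ B = J ⊔ (E ⊔ B) := by
      rw [← sup_assoc, sup_eq_left.mpr hEJ]
    rw [e1, Subgroup.relIndex_sup_right, ← Subgroup.inf_relIndex_right, sup_inf_assoc_of_le B hEJ]
  have h2 : (E ⊓ B).relIndex (J ⊓ B) = E.relIndex (E ⊔ B ⊓ J) := by
    rw [Subgroup.relIndex_sup_left, ← Subgroup.inf_relIndex_right (H := E) (K := B ⊓ J)]
    congr 1
    · rw [← inf_assoc, inf_comm E B, inf_assoc, inf_eq_left.mpr hEJ, inf_comm]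
    · rw [inf_comm]
  rw [h1, h2]
  exact Subgroup.relIndex_mul_relIndex _ _ _ le_sup_left (sup_le hEJ inf_le_right)

/-- if `a ^ n ∈ H` then `(H ⟨a⟩ : H)` divides `n`. -/
theorem relIndex_sup_zpowers_dvd (H : Subgroup G) (a : G) (n : ℕ) (h : a ^ n ∈ H) :
    H.relIndex (H ⊔ Subgroup.zpowers a) ∣ n := by
  have h1 : H.relIndex (H ⊔ Subgroup.zpowers a) =
      Nat.card ((H ⊔ Subgroup.zpowers a).map (QuotientGroup.mk' H)) := by
    have := Subgroup.relIndex_ker (K := H ⊔ Subgroup.zpowers a) (QuotientGroup.mk' H)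
    rwa [QuotientGroup.ker_mk'] at this
  rw [h1, Subgroup.map_sup, QuotientGroup.map_mk'_self, bot_sup_eq, MonoidHom.map_zpowers,
    Nat.card_zpowers]
  apply orderOf_dvd_of_pow_eq_one
  rw [← map_pow]
  exact (QuotientGroup.eq_one_iff _).mpr h

end Generalities


section Core

variable {K : Type*} [Field K] {V : Type*} (A : V → Type*) [∀ v, CommGroup (A v)]
  (ι : ∀ v, Kˣ →* A v) (U : ∀ v, Subgroup (A v)) (p : ℕ)

/-- the ideles: restricted product of the `A v` with respect to the `U v` -/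
def idele : Subgroup (∀ v, A v) where
  carrier := {y | {v | y v ∉ U v}.Finite}
  one_mem' := by
    have : {v | (1 : ∀ v, A v) v ∉ U v} = ∅ := by
      ext v
      simp only [Pi.one_apply, Set.mem_ofPred_eq, Set.mem_empty_iff_false, iff_false, not_not]
      exact (U v).one_mem
    show {v | (1 : ∀ v, A v) v ∉ U v}.Finite
    rw [this]
    exact Set.finite_empty
  mul_mem' := by
    intro y z hy hz
    refine (Set.Finite.union hy hz).subset ?_
    intro v hv
    by_contra h
    rw [Set.mem_union, not_or] at h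
    exact hv ((U v).mul_mem (not_not.mp h.1) (not_not.mp h.2))
  inv_mem' := by
    intro y hy
    refine Set.Finite.subset hy ?_
    intro v hv h
    exact hv ((U v).inv_mem h)

theorem mem_idele {y : ∀ v, A v} : y ∈ idele A U ↔ {v | y v ∉ U v}.Finite := Iff.rfl

/-- the `T`-ideles: units outside `T` -/
def idS (T : Finset V) : Subgroup (∀ v, A v) where
  carrier := {y | ∀ v, v ∉ T → y v ∈ U v}
  one_mem' := fun v _ => (U v).one_mem
  mul_mem' := fun hy hz v hv => (U v).mul_mem (hy v hv) (hz v hv)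
  inv_mem' := fun hy v hv => (U v).inv_mem (hy v hv)

theorem mem_idS {T : Finset V} {y : ∀ v, A v} : y ∈ idS A U T ↔ ∀ v, v ∉ T → y v ∈ U v :=
  Iff.rfl

theorem idS_le_idele (T : Finset V) : idS A U T ≤ idele A U := by
  intro y hy
  refine T.finite_toSet.subset ?_
  intro v hv
  by_contra h
  exact hv (hy v h)

theorem idS_mono {T T' : Finset V} (h : T ⊆ T') : idS A U T ≤ idS A U T' :=
  fun _ hy v hv => hy v (fun hvT => hv (h hvT))

/-- the diagonal map -/
def diag : Kˣ →* (∀ v, A v) := MonoidHom.pi ι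

@[simp] theorem diag_apply (x : Kˣ) (v : V) : diag A ι x v = ι v x := rfl

/-- the `T`-units of `K` -/
def sUnits (T : Finset V) : Subgroup Kˣ := (idS A U T).comap (diag A ι)

theorem mem_sUnits {T : Finset V} {x : Kˣ} :
    x ∈ sUnits A ι U T ↔ ∀ v, v ∉ T → ι v x ∈ U v := Iff.rfl

/-- `p`-th powers in `A v` -/
abbrev Pw (v : V) : Subgroup (A v) := (powMonoidHom p : A v →* A v).range

/-- `p`-th powers in `Kˣ` -/
abbrev PK : Subgroup Kˣ := (powMonoidHom p : Kˣ →* Kˣ).range

theorem pow_mem_Pw {v : V} (z : A v) : z ^ p ∈ Pw A p v := ⟨z, rfl⟩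

theorem mem_Pw {v : V} {z : A v} : z ∈ Pw A p v ↔ ∃ c : A v, c ^ p = z := Iff.rfl

theorem map_mem_Pw {v : V} {x : Kˣ} (hx : x ∈ PK (K := K) p) : ι v x ∈ Pw A p v := by
  obtain ⟨c, rfl⟩ := hx
  exact ⟨ι v c, by simp [powMonoidHom_apply]⟩

/-- ideles which are `p`-th powers at the places of `S` -/
def pwS (S : Finset V) : Subgroup (∀ v, A v) where
  carrier := {y | ∀ v ∈ S, y v ∈ Pw A p v}
  one_mem' := fun v _ => (Pw A p v).one_mem
  mul_mem' := fun hy hz v hv => (Pw A p v).mul_mem (hy v hv) (hz v hv)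
  inv_mem' := fun hy v hv => (Pw A p v).inv_mem (hy v hv)

theorem mem_pwS {S : Finset V} {y : ∀ v, A v} : y ∈ pwS A p S ↔ ∀ v ∈ S, y v ∈ Pw A p v :=
  Iff.rfl

/-- `Δ_W`: the `S`-units which are local `p`-th powers at all `w ∈ W`. -/
def Del (S W : Finset V) : Subgroup Kˣ := sUnits A ι U S ⊓ (pwS A p W).comap (diag A ι)

theorem mem_Del {S W : Finset V} {u : Kˣ} :
    u ∈ Del A ι U p S W ↔ u ∈ sUnits A ι U S ∧ ∀ w ∈ W, ι w u ∈ Pw A p w := Iff.rfl

/-- **[CL]** ("Chebotarev-lite", a consequence of the FIRST inequality over `K(a^{1/p})`):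
if `b ∉ ⟨a⟩·Kˣᵖ` there are places outside any finite set where `a` is a local `p`-th power and
`b` is not. -/
def CL : Prop :=
  ∀ a b : Kˣ, b ∉ Subgroup.zpowers a ⊔ PK (K := K) p → ∀ S₀ : Finset V,
    ∃ w, w ∉ S₀ ∧ ι w a ∈ Pw A p w ∧ ι w b ∉ Pw A p w

/-- **[FI]** (the FIRST inequality for `K(x^{1/p})/K`, in contrapositive Kummer form): if the
ideles of `K` are generated by `Kˣ` and by ideles which are local norms from `K(x^{1/p})` for
the three obvious reasons (`p`-th power; `x` is a local `p`-th power; `v` tame and `x` a local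
unit), then `x` is a `p`-th power. -/
def FI (tame : Set V) : Prop :=
  ∀ (x : Kˣ) (P : Finset V),
    (∀ v, v ∉ P → ι v x ∈ Pw A p v ∨ (v ∈ tame ∧ ι v x ∈ U v)) →
    (∀ y ∈ idele A U, ∃ c : Kˣ, (∀ v ∈ P, y v * ι v c ∈ Pw A p v) ∧
      (∀ v, v ∉ P → ι v x ∉ Pw A p v → y v * ι v c ∈ U v)) →
    x ∈ PK (K := K) p

end Core

section Aux

variable {K : Type*} [Field K] {V : Type*} {A : V → Type*} [∀ v, CommGroup (A v)]
  {ι : ∀ v, Kˣ →* A v} {U : ∀ v, Subgroup (A v)} {p : ℕ}

theorem map_pow_le_Del (S W : Finset V) :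
    (sUnits A ι U S).map (powMonoidHom p) ≤ Del A ι U p S W := by
  rintro _ ⟨c, hc, rfl⟩
  refine ⟨(sUnits A ι U S).pow_mem hc p, fun w _ => ?_⟩
  exact ⟨ι w c, by simp [powMonoidHom_apply]⟩

theorem Del_le_sUnits (S W : Finset V) : Del A ι U p S W ≤ sUnits A ι U S := inf_le_left

theorem Del_empty (S : Finset V) : Del A ι U p S ∅ = sUnits A ι U S := by
  refine le_antisymm inf_le_left (le_inf le_rfl ?_)
  intro u _ w hw
  exact absurd hw (Finset.notMem_empty w)

/-- root closure of the `S`-units -/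
theorem mem_sUnits_of_pow (tame : Set V) (S : Finset V) (hS : ∀ v, v ∉ S → v ∈ tame)
    (hroot : ∀ v ∈ tame, ∀ z : A v, z ^ p ∈ U v → z ∈ U v) {T : Finset V} (hST : S ⊆ T)
    {c : Kˣ} (hc : c ^ p ∈ sUnits A ι U T) : c ∈ sUnits A ι U T := by
  intro v hv
  refine hroot v (hS v (fun h => hv (hST h))) _ ?_
  have := hc v hv
  rwa [diag_apply, map_pow] at this

/-- the auxiliary places of Cassels–Fröhlich VII.9 -/
theorem exists_aux_places [Fact p.Prime] (tame : Set V) (S : Finset V)
    (hS : ∀ v, v ∉ S → v ∈ tame)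
    (hunit : ((sUnits A ι U S).map (powMonoidHom p)).relIndex (sUnits A ι U S) = p ^ S.card)
    (htame : ∀ v ∈ tame, (Pw A p v).relIndex (U v) = p)
    (hroot : ∀ v ∈ tame, ∀ z : A v, z ^ p ∈ U v → z ∈ U v)
    (hCL : CL A ι p) (a : Kˣ) (haS : a ∈ sUnits A ι U S) :
    ∀ j, j + 1 ≤ S.card → ∃ W : Finset V, W.card = j ∧ (∀ w ∈ W, w ∉ S) ∧
      (∀ w ∈ W, ι w a ∈ Pw A p w) ∧
      (Del A ι U p S W).relIndex (sUnits A ι U S) = p ^ j ∧
      (∀ z : ∀ v, A v, (∀ w ∈ W, z w ∈ U w) →
        ∃ u ∈ sUnits A ι U S, ∀ w ∈ W, z w * ι w u ∈ Pw A p w) := by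
  classical
  have hp : p.Prime := Fact.out
  intro j
  induction j with
  | zero =>
    intro _
    refine ⟨∅, rfl, fun w hw => absurd hw (Finset.notMem_empty w),
      fun w hw => absurd hw (Finset.notMem_empty w), ?_, ?_⟩
    · rw [Del_empty, Subgroup.relIndex_self, pow_zero]
    · intro z _
      exact ⟨1, Subgroup.one_mem _, fun w hw => absurd hw (Finset.notMem_empty w)⟩
  | succ j ih =>
    intro hj
    obtain ⟨W, hWcard, hWS, hWa, hWidx, hWsurj⟩ := ih (by omega)
    set Q := sUnits A ι U S with hQ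
    set Qp := Q.map (powMonoidHom p) with hQp
    set Δ := Del A ι U p S W with hΔ
    have hQpΔ : Qp ≤ Δ := map_pow_le_Del S W
    have hΔQ : Δ ≤ Q := Del_le_sUnits S W
    have haΔ : a ∈ Δ := ⟨haS, hWa⟩
    -- a `b ∈ Δ` outside `⟨a⟩ Qᵖ`
    have hb : ∃ b ∈ Δ, b ∉ Qp ⊔ Subgroup.zpowers a := by
      by_contra hcon
      push Not at hcon
      have hΔR : Δ ≤ Qp ⊔ Subgroup.zpowers a := hcon
      have h1 : Qp.relIndex Δ * Δ.relIndex Q = p ^ S.card := by
        rw [Subgroup.relIndex_mul_relIndex _ _ _ hQpΔ hΔQ, hunit]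
      have h2 : Qp.relIndex Δ ∣ p := by
        have h3 := Subgroup.relIndex_mul_relIndex _ _ _ hQpΔ hΔR
        have h4 : Qp.relIndex (Qp ⊔ Subgroup.zpowers a) ∣ p := by
          apply relIndex_sup_zpowers_dvd
          exact ⟨a, haS, rfl⟩
        exact Dvd.dvd.trans ⟨_, h3.symm⟩ h4
      rw [hWidx] at h1
      rcases (Nat.dvd_prime hp).mp h2 with h5 | h5
      · rw [h5, one_mul] at h1
        have := Nat.pow_right_injective hp.two_le h1
        omega
      · rw [h5, ← pow_succ'] at h1
        have := Nat.pow_right_injective hp.two_le h1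
        omega
    obtain ⟨b, hbΔ, hbR⟩ := hb
    have hbQ : b ∈ Q := hΔQ hbΔ
    have hb' : b ∉ Subgroup.zpowers a ⊔ PK (K := K) p := by
      intro hmem
      obtain ⟨y, hy, z, hz, hyz⟩ := Subgroup.mem_sup.mp hmem
      apply hbR
      have hyQ : y ∈ Q := (Subgroup.zpowers_le.mpr haS) hy
      have hzQ : z ∈ Q := by
        have : z = y⁻¹ * b := by rw [← hyz]; group
        rw [this]
        exact Q.mul_mem (Q.inv_mem hyQ) hbQ
      obtain ⟨c, rfl⟩ := hz
      have hcQ : c ∈ Q := mem_sUnits_of_pow tame S hS hroot (Finset.Subset.refl S) hzQ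
      rw [← hyz, mul_comm]
      exact Subgroup.mul_mem_sup ⟨c, hcQ, rfl⟩ hy
    obtain ⟨w, hwSW, hwa, hwb⟩ := hCL a b hb' (S ∪ W)
    have hwS : w ∉ S := fun h => hwSW (Finset.mem_union_left _ h)
    have hwW : w ∉ W := fun h => hwSW (Finset.mem_union_right _ h)
    have hwt : w ∈ tame := hS w hwS
    -- the local quotient at `w`
    set g : Kˣ →* A w ⧸ Pw A p w := (QuotientGroup.mk' (Pw A p w)).comp (ι w) with hg
    set Ubar : Subgroup (A w ⧸ Pw A p w) := (U w).map (QuotientGroup.mk' (Pw A p w)) with hUbar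
    have hUcard : Nat.card Ubar = p := by
      have := Subgroup.relIndex_ker (K := U w) (QuotientGroup.mk' (Pw A p w))
      rw [QuotientGroup.ker_mk', htame w hwt] at this
      exact this.symm
    have hΔU : Δ.map g ≤ Ubar := by
      rintro _ ⟨u, hu, rfl⟩
      exact ⟨ι w u, (hΔQ hu) w hwS, rfl⟩
    have hgb : g b ≠ 1 := by
      intro h
      exact hwb ((QuotientGroup.eq_one_iff _).mp h)
    have : Finite Ubar := Nat.finite_of_card_ne_zero (by rw [hUcard]; exact hp.ne_zero)
    have hΔcard : Nat.card (Δ.map g) = p := by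
      have h1 : Nat.card (Δ.map g) ∣ p := by
        have := Subgroup.card_dvd_of_le hΔU
        rwa [hUcard] at this
      rcases (Nat.dvd_prime hp).mp h1 with h2 | h2
      · exfalso
        have h3 := Subgroup.eq_bot_of_card_eq _ h2
        have h4 : g b ∈ Δ.map g := ⟨b, hbΔ, rfl⟩
        rw [h3, Subgroup.mem_bot] at h4
        exact hgb h4
      · exact h2
    refine ⟨insert w W, ?_, ?_, ?_, ?_, ?_⟩
    · rw [Finset.card_insert_of_notMem hwW, hWcard]
    · intro w' hw'
      rcases Finset.mem_insert.mp hw' with rfl | h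
      · exact hwS
      · exact hWS w' h
    · intro w' hw'
      rcases Finset.mem_insert.mp hw' with rfl | h
      · exact hwa
      · exact hWa w' h
    · have hDel : Del A ι U p S (insert w W) = g.ker ⊓ Δ := by
        ext u
        rw [mem_Del, Subgroup.mem_inf, MonoidHom.mem_ker, hg, MonoidHom.comp_apply,
          QuotientGroup.mk'_apply, QuotientGroup.eq_one_iff, hΔ, mem_Del, Finset.forall_mem_insert]
        tauto
      have h1 : (Del A ι U p S (insert w W)).relIndex Δ = p := by
        rw [hDel, Subgroup.inf_relIndex_right, Subgroup.relIndex_ker, hΔcard]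
      have hle : Del A ι U p S (insert w W) ≤ Δ := by rw [hDel]; exact inf_le_right
      rw [← Subgroup.relIndex_mul_relIndex _ _ _ hle hΔQ, h1, hWidx, pow_succ']
    · intro z hz
      obtain ⟨u₀, hu₀Q, hu₀⟩ := hWsurj z (fun w' hw' => hz w' (Finset.mem_insert_of_mem hw'))
      have htU : z w * ι w u₀ ∈ U w :=
        (U w).mul_mem (hz w (Finset.mem_insert_self w W)) (hu₀Q w hwS)
      let tbar : Ubar := ⟨QuotientGroup.mk' (Pw A p w) (z w * ι w u₀), ⟨_, htU, rfl⟩⟩
      let gbar : Ubar := ⟨g b, hΔU ⟨b, hbΔ, rfl⟩⟩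
      have hgbar : gbar ≠ 1 := by
        intro h
        exact hgb (congrArg Subtype.val h)
      obtain ⟨k, hk⟩ := Subgroup.mem_zpowers_iff.mp
        (mem_zpowers_of_prime_card (g' := tbar) hUcard hgbar)
      have hk' : (g b) ^ k = QuotientGroup.mk' (Pw A p w) (z w * ι w u₀) := by
        have := congrArg Subtype.val hk
        rw [Subgroup.coe_zpow] at this
        exact this
      refine ⟨u₀ * b ^ (-k), Q.mul_mem hu₀Q (Q.zpow_mem hbQ _), ?_⟩
      intro w' hw'
      rcases Finset.mem_insert.mp hw' with rfl | h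
      · apply (QuotientGroup.eq_one_iff _).mp
        have : ((z w' * ι w' (u₀ * b ^ (-k)) : A w') : A w' ⧸ Pw A p w') =
            QuotientGroup.mk' (Pw A p w') (z w' * ι w' u₀) * (g b) ^ (-k) := by
          rw [hg, MonoidHom.comp_apply, ← map_zpow, ← map_zpow, ← map_mul, map_mul (ι w'),
            mul_assoc]
          rfl
        rw [this, ← hk', ← zpow_add, add_neg_cancel, zpow_zero]
      · have h1 : z w' * ι w' (u₀ * b ^ (-k)) = (z w' * ι w' u₀) * (ι w' b) ^ (-k) := by
          rw [map_mul, map_zpow, mul_assoc]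
        rw [h1]
        exact (Pw A p w').mul_mem (hu₀ w' h) ((Pw A p w').zpow_mem (hbΔ.2 w' h) _)

end Aux

section Main

variable {K : Type*} [Field K] {V : Type*} (A : V → Type*) [∀ v, CommGroup (A v)]
  (ι : ∀ v, Kˣ →* A v) (U : ∀ v, Subgroup (A v)) (p : ℕ)

/-- the quotient map to the local `p`-th power quotients at `S` -/
def phiS (S : Finset V) : (∀ v, A v) →* (∀ v : S, A v ⧸ Pw A p v) :=
  MonoidHom.pi fun v => (QuotientGroup.mk' (Pw A p v)).comp (Pi.evalMonoidHom A v)

theorem ker_phiS (S : Finset V) : (phiS A p S).ker = pwS A p S := by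
  ext y
  rw [MonoidHom.mem_ker, mem_pwS]
  constructor
  · intro h v hv
    have := congrFun h ⟨v, hv⟩
    exact (QuotientGroup.eq_one_iff _).mp this
  · intro h
    funext v
    exact (QuotientGroup.eq_one_iff _).mpr (h v v.2)

theorem relIndex_pwS_idS (S T : Finset V) (hST : S ⊆ T) :
    (pwS A p S).relIndex (idS A U T) = ∏ v ∈ S, (Pw A p v).index := by
  classical
  rw [← ker_phiS, Subgroup.relIndex_ker]
  have htop : (idS A U T).map (phiS A p S) = ⊤ := by
    rw [eq_top_iff]
    intro z _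
    choose r hr using fun v : S => QuotientGroup.mk'_surjective (Pw A p v) (z v)
    refine ⟨fun v => if h : v ∈ S then r ⟨v, h⟩ else 1, ?_, ?_⟩
    · intro v hv
      have hvS : v ∉ S := fun h => hv (hST h)
      simp only [hvS, dite_false]
      exact (U v).one_mem
    · funext v
      show QuotientGroup.mk' (Pw A p v) (if h : (v : V) ∈ S then r ⟨v, h⟩ else 1) = z v
      rw [dif_pos v.2]
      exact hr v
  rw [htop, Nat.card_congr (Subgroup.topEquiv (G := ∀ v : S, A v ⧸ Pw A p v)).toEquiv,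
    Nat.card_pi, ← Finset.prod_coe_sort S (fun v => (Pw A p v).index)]
  rfl

theorem map_pow_le_sUnits (T : Finset V) :
    (sUnits A ι U T).map (powMonoidHom p) ≤ sUnits A ι U T := by
  rintro _ ⟨c, hc, rfl⟩
  exact (sUnits A ι U T).pow_mem hc p

/-- **Second inequality, abstract core** (Cassels–Fröhlich VII.9 / Neukirch VI.4.4). -/
theorem relIndex_sup_dvd [Fact p.Prime]
    (hfin : ∀ x : Kˣ, {v | ι v x ∉ U v}.Finite)
    (tame : Set V) (S : Finset V) (hS : ∀ v, v ∉ S → v ∈ tame)
    -- (H1) class group generated by `S`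
    (hgen : ∀ y ∈ idele A U, ∃ x : Kˣ, ∀ v, v ∉ S → y v * ι v x ∈ U v)
    -- (H2) `T`-unit theorem (with `μ_p ⊆ K`)
    (hunit : ∀ T : Finset V, S ⊆ T →
      ((sUnits A ι U T).map (powMonoidHom p)).relIndex (sUnits A ι U T) = p ^ T.card)
    -- (H3) local indices and product formula
    (hprod : ∏ v ∈ S, (Pw A p v).index = p ^ (2 * S.card))
    -- (H4) tame places
    (htame : ∀ v ∈ tame, (Pw A p v).relIndex (U v) = p)
    (hroot : ∀ v ∈ tame, ∀ z : A v, z ^ p ∈ U v → z ∈ U v)
    -- consequences of the first inequality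
    (hCL : CL A ι p) (hFI : FI A ι U p tame)
    -- the Kummer generator
    (a : Kˣ) (ha : a ∉ PK (K := K) p) (haS : a ∈ sUnits A ι U S)
    -- a subgroup containing the obvious local norms
    (Nm : Subgroup (∀ v, A v))
    (hNm : ∀ y ∈ idele A U, (∀ v ∈ S, y v ∈ Pw A p v) →
      (∀ v, v ∉ S → ι v a ∉ Pw A p v → y v ∈ U v) → y ∈ Nm) :
    ((diag A ι).range ⊔ Nm).relIndex (idele A U) ∣ p := by
  classical
  have hp : p.Prime := Fact.out
  -- `s ≥ 1`
  have hs : 1 ≤ S.card := by
    by_contra h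
    have h0 : S.card = 0 := by omega
    have h1 := hunit S (Finset.Subset.refl S)
    rw [h0, pow_zero, Subgroup.relIndex_eq_one] at h1
    obtain ⟨c, _, hc⟩ := h1 haS
    exact ha ⟨c, hc⟩
  obtain ⟨W, hWcard, hWS, hWa, -, hWsurj⟩ :=
    exists_aux_places tame S hS (hunit S (Finset.Subset.refl S)) htame hroot hCL a haS
      (S.card - 1) (by omega)
  set T := S ∪ W with hT
  have hST : S ⊆ T := Finset.subset_union_left
  have hdisj : Disjoint S W := by
    rw [Finset.disjoint_left]
    intro v hvS hvW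
    exact hWS v hvW hvS
  have hTcard : T.card = 2 * S.card - 1 := by
    rw [hT, Finset.card_union_of_disjoint hdisj, hWcard]
    omega
  set B := (diag A ι).range with hB
  set E := pwS A p S ⊓ idS A U T with hE
  have hEJ : E ≤ idS A U T := inf_le_right
  -- (a) `E ≤ Nm`
  have hENm : E ≤ Nm := by
    intro y hy
    refine hNm y (idS_le_idele A U T hy.2) hy.1 ?_
    intro v hvS hva
    apply hy.2 v
    intro hvT
    rcases Finset.mem_union.mp hvT with h | h
    · exact hvS h
    · exact hva (hWa v h)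
  -- (b) `J = J^T Kˣ`
  have hBle : B ≤ idele A U := by
    rintro _ ⟨x, rfl⟩
    exact hfin x
  have hsup : idS A U T ⊔ B = idele A U := by
    apply le_antisymm (sup_le (idS_le_idele A U T) hBle)
    intro y hy
    obtain ⟨x, hx⟩ := hgen y hy
    have h1 : y * diag A ι x ∈ idS A U T := fun v hv => hx v (fun h => hv (hST h))
    have h2 : y = (y * diag A ι x) * (diag A ι x)⁻¹ := by group
    rw [h2]
    exact Subgroup.mul_mem_sup h1 (B.inv_mem ⟨x, rfl⟩)
  -- (c) `(J^T : E) = p^{2s}`
  have hc : E.relIndex (idS A U T) = p ^ (2 * S.card) := by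
    rw [hE, Subgroup.inf_relIndex_right, relIndex_pwS_idS A U p S T hST, hprod]
  -- (d) `J^T ∩ Kˣ = K^T`
  have hd : idS A U T ⊓ B = (sUnits A ι U T).map (diag A ι) := by
    rw [sUnits, Subgroup.map_comap_eq, inf_comm]
  -- (e) key lemma
  have hkey : E.comap (diag A ι) ≤ (sUnits A ι U T).map (powMonoidHom p) := by
    intro x hx
    have hxS : ∀ v ∈ S, ι v x ∈ Pw A p v := hx.1
    have hxT : ∀ v, v ∉ T → ι v x ∈ U v := hx.2
    have hxp : x ∈ PK (K := K) p := by
      apply hFI x W
      · intro v hvW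
        by_cases hvS : v ∈ S
        · exact Or.inl (hxS v hvS)
        · refine Or.inr ⟨hS v hvS, hxT v ?_⟩
          intro hvT
          rcases Finset.mem_union.mp hvT with h | h
          · exact hvS h
          · exact hvW h
      · intro y hy
        obtain ⟨x₁, hx₁⟩ := hgen y hy
        obtain ⟨u, huQ, hu⟩ := hWsurj (y * diag A ι x₁) (fun w hw => hx₁ w (hWS w hw))
        refine ⟨x₁ * u, ?_, ?_⟩
        · intro v hvW
          have := hu v hvW
          rwa [Pi.mul_apply, diag_apply, mul_assoc, ← map_mul] at this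
        · intro v hvW hvx
          have hvS : v ∉ S := fun h => hvx (hxS v h)
          rw [map_mul, ← mul_assoc]
          exact (U v).mul_mem (hx₁ v hvS) (huQ v hvS)
    obtain ⟨c, rfl⟩ := hxp
    refine ⟨c, ?_, rfl⟩
    apply mem_sUnits_of_pow tame S hS hroot hST
    exact hxT
  -- index computation
  have h1 := relIndex_inf_mul_relIndex_sup (idS A U T) E B hEJ
  rw [hsup, hc] at h1
  have h2 : (E ⊓ B).relIndex (idS A U T ⊓ B) =
      (E.comap (diag A ι)).relIndex (sUnits A ι U T) := by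
    rw [Subgroup.relIndex_comap, ← hd, ← Subgroup.inf_relIndex_right E (idS A U T ⊓ B)]
    congr 1
    rw [← inf_assoc, inf_eq_left.mpr hEJ]
  have h3 : (E.comap (diag A ι)).relIndex (sUnits A ι U T) =
      (E.comap (diag A ι)).relIndex ((sUnits A ι U T).map (powMonoidHom p)) * p ^ T.card := by
    rw [← hunit T hST]
    exact (Subgroup.relIndex_mul_relIndex _ _ _ hkey (map_pow_le_sUnits A ι U p T)).symm
  rw [h2, h3, hTcard] at h1
  have hX : (E ⊔ B).relIndex (idele A U) ∣ p := by
    have h4 : p ^ (2 * S.card) = p ^ (2 * S.card - 1) * p := by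
      rw [← pow_succ]
      congr 1
      omega
    rw [h4] at h1
    have hpos : 0 < p ^ (2 * S.card - 1) := pow_pos hp.pos _
    have h5 : p ^ (2 * S.card - 1) *
        ((E.comap (diag A ι)).relIndex ((sUnits A ι U T).map (powMonoidHom p)) *
          (E ⊔ B).relIndex (idele A U)) = p ^ (2 * S.card - 1) * p := by
      rw [← h1]
      ring
    exact Dvd.intro_left _ (Nat.eq_of_mul_eq_mul_left hpos h5)
  have hle : E ⊔ B ≤ B ⊔ Nm := sup_le (hENm.trans le_sup_right) le_sup_left
  exact (Subgroup.relIndex_dvd_of_le_left (idele A U) hle).trans hX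

end Main

end Fermat.Agent.S55.SecondIneq74
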