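/-
S55 / 32-SECOND-INEQ (helper74): GLUE between the abstract core `SecondIneq74.Core` and a concrete
idele-class module (coinduced model of helper73/helper44, via the assembly map of helper53).

* `FI_of_first`      (G2) : the hypothesis `FI` of the core follows from the FIRST inequality in the
  form "for `x ∉ Kˣᵖ` there is a proper subgroup `N_x` of the ideles containing `Kˣ` and the three
  kinds of obvious local norms of `K(x^{1/p})/K`".
* `FI_of_first_hom`         : the same with a non-trivial homomorphism `Ψ_x` instead of `N_x`.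
* `card_dvd_of_surjective` (G1) : OUTPUT of the second inequality in model-free form: every
  quotient `Ψ : ideles ↠ Q` killing `Kˣ` and the obvious local norms of `K(a^{1/p})/K` has
  `Nat.card Q ∣ p`.
* `norm_index_descent` (G3) : the `cor ∘ res` reduction `K → K(μ_p)` on the level of `Ĥ⁰`.
-/
import Fermat.Agent.S55.SecondIneq74.Core

set_option autoImplicit false

namespace Fermat.Agent.S55.SecondIneq74

section Glue

variable {K : Type*} [Field K] {V : Type*} (A : V → Type*) [∀ v, CommGroup (A v)]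
  (ι : ∀ v, Kˣ →* A v) (U : ∀ v, Subgroup (A v)) (p : ℕ)

theorem diag_range_le_idele (hfin : ∀ x : Kˣ, {v | ι v x ∉ U v}.Finite) :
    (diag A ι).range ≤ idele A U := by
  rintro _ ⟨x, rfl⟩
  exact hfin x

/-- **(G2)** `FI` from the first inequality, subgroup form: for `x ∉ Kˣᵖ` there is a PROPER
subgroup `N` of the ideles (think `Kˣ · N_{M/K} J_M`, `M = K(x^{1/p})`) containing the principal
ideles and every idele `y` which at EVERY place is a local norm for one of the three obvious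
reasons: `y v` is a `p`-th power, or `x` is a local `p`-th power (`v` splits in `M`), or `v` is
tame, `x` is a local unit (`M/K` unramified at `v`) and `y v` is a unit. -/
theorem FI_of_first (hfin : ∀ x : Kˣ, {v | ι v x ∉ U v}.Finite) (tame : Set V)
    (hfirst : ∀ x : Kˣ, x ∉ PK (K := K) p → ∃ N : Subgroup (∀ v, A v),
      ¬ idele A U ≤ N ∧ (diag A ι).range ≤ N ∧
      ∀ y ∈ idele A U,
        (∀ v, y v ∈ Pw A p v ∨ ι v x ∈ Pw A p v ∨ (v ∈ tame ∧ ι v x ∈ U v ∧ y v ∈ U v)) →
        y ∈ N) :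
    FI A ι U p tame := by
  intro x P hx hgen
  by_contra hxK
  obtain ⟨N, hN, hdiag, hloc⟩ := hfirst x hxK
  apply hN
  intro y hy
  obtain ⟨c, hcP, hcU⟩ := hgen y hy
  have hc : diag A ι c ∈ N := hdiag ⟨c, rfl⟩
  have hyc : y * diag A ι c ∈ N := by
    refine hloc _ ((idele A U).mul_mem hy (hfin c)) ?_
    intro v
    by_cases hvP : v ∈ P
    · exact Or.inl (hcP v hvP)
    · by_cases hxv : ι v x ∈ Pw A p v
      · exact Or.inr (Or.inl hxv)
      · rcases hx v hvP with h | ⟨ht, hu⟩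
        · exact absurd h hxv
        · exact Or.inr (Or.inr ⟨ht, hu, hcU v hvP hxv⟩)
  have : y = (y * diag A ι c) * (diag A ι c)⁻¹ := by group
  rw [this]
  exact N.mul_mem hyc (N.inv_mem hc)

/-- **(G2')** `FI` from the first inequality, homomorphism form: for `x ∉ Kˣᵖ` there is a
homomorphism `Ψ` from the ideles to some group, NOT identically `1`, killing the principal ideles
and the obvious local norms of `K(x^{1/p})/K`. -/
theorem FI_of_first_hom (hfin : ∀ x : Kˣ, {v | ι v x ∉ U v}.Finite) (tame : Set V)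
    (hfirst : ∀ x : Kˣ, x ∉ PK (K := K) p → ∃ (Q : Type) (_ : Group Q) (Ψ : idele A U →* Q),
      (∃ y, Ψ y ≠ 1) ∧ (∀ c : Kˣ, Ψ ⟨diag A ι c, hfin c⟩ = 1) ∧
      ∀ y : idele A U,
        (∀ v, y.1 v ∈ Pw A p v ∨ ι v x ∈ Pw A p v ∨ (v ∈ tame ∧ ι v x ∈ U v ∧ y.1 v ∈ U v)) →
        Ψ y = 1) :
    FI A ι U p tame := by
  refine FI_of_first A ι U p hfin tame ?_
  intro x hx
  obtain ⟨Q, _, Ψ, ⟨y₀, hy₀⟩, hdiag, hloc⟩ := hfirst x hx
  refine ⟨Ψ.ker.map (idele A U).subtype, ?_, ?_, ?_⟩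
  · intro hle
    obtain ⟨z, hz, hzy⟩ := hle y₀.2
    have : z = y₀ := Subtype.ext hzy
    exact hy₀ (this ▸ hz)
  · rintro _ ⟨c, rfl⟩
    exact ⟨⟨diag A ι c, hfin c⟩, hdiag c, rfl⟩
  · intro y hy h
    exact ⟨⟨y, hy⟩, hloc ⟨y, hy⟩ h, rfl⟩

/-- **(G1)** OUTPUT of the second inequality, model free: every quotient `Ψ : ideles ↠ Q` which
kills the principal ideles and the obvious local norms of `K(a^{1/p})/K` (`p`-th powers at `S`,
units at the non-split places outside `S`, everything at the split places outside `S`) has order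
dividing `p`. -/
theorem card_dvd_of_surjective [Fact p.Prime]
    (hfin : ∀ x : Kˣ, {v | ι v x ∉ U v}.Finite)
    (tame : Set V) (S : Finset V) (hS : ∀ v, v ∉ S → v ∈ tame)
    (hgen : ∀ y ∈ idele A U, ∃ x : Kˣ, ∀ v, v ∉ S → y v * ι v x ∈ U v)
    (hunit : ∀ T : Finset V, S ⊆ T →
      ((sUnits A ι U T).map (powMonoidHom p)).relIndex (sUnits A ι U T) = p ^ T.card)
    (hprod : ∏ v ∈ S, (Pw A p v).index = p ^ (2 * S.card))
    (htame : ∀ v ∈ tame, (Pw A p v).relIndex (U v) = p)
    (hroot : ∀ v ∈ tame, ∀ z : A v, z ^ p ∈ U v → z ∈ U v)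
    (hCL : CL A ι p) (hFI : FI A ι U p tame)
    (a : Kˣ) (ha : a ∉ PK (K := K) p) (haS : a ∈ sUnits A ι U S)
    {Q : Type*} [Group Q] (Ψ : idele A U →* Q) (hΨ : Function.Surjective Ψ)
    (hdiag : ∀ c : Kˣ, Ψ ⟨diag A ι c, hfin c⟩ = 1)
    (hBL : ∀ y : idele A U, (∀ v ∈ S, y.1 v ∈ Pw A p v) →
      (∀ v, v ∉ S → ι v a ∉ Pw A p v → y.1 v ∈ U v) → Ψ y = 1) :
    Nat.card Q ∣ p := by
  set Nm : Subgroup (∀ v, A v) := Ψ.ker.map (idele A U).subtype with hNmdef
  have hNm : ∀ y ∈ idele A U, (∀ v ∈ S, y v ∈ Pw A p v) →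
      (∀ v, v ∉ S → ι v a ∉ Pw A p v → y v ∈ U v) → y ∈ Nm := by
    intro y hy h1 h2
    exact ⟨⟨y, hy⟩, hBL ⟨y, hy⟩ h1 h2, rfl⟩
  have hmain := relIndex_sup_dvd A ι U p hfin tame S hS hgen hunit hprod htame hroot hCL hFI
    a ha haS Nm hNm
  have hdiagle : (diag A ι).range ≤ Nm := by
    rintro _ ⟨c, rfl⟩
    exact ⟨⟨diag A ι c, hfin c⟩, hdiag c, rfl⟩
  rw [sup_eq_right.mpr hdiagle] at hmain
  -- `Nm.relIndex idele = Ψ.ker.index = Nat.card Q`
  have h1 : Nm.relIndex (idele A U) = Ψ.ker.index := by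
    rw [Subgroup.relIndex, hNmdef]
    congr 1
    ext y
    simp only [Subgroup.mem_subgroupOf, Subgroup.mem_map, Subgroup.coe_subtype]
    constructor
    · rintro ⟨z, hz, hzy⟩
      have : z = y := Subtype.ext hzy
      exact this ▸ hz
    · intro hy
      exact ⟨y, hy, rfl⟩
  rw [h1, Subgroup.index_ker, Nat.card_congr (Equiv.ofBijective (fun x : Ψ.range => (x : Q))
    ⟨Subtype.val_injective, fun q => by
      obtain ⟨y, rfl⟩ := hΨ q
      exact ⟨⟨Ψ y, y, rfl⟩, rfl⟩⟩)] at hmain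
  exact hmain

end Glue

section Descent

/-! ### (G3) the `cor ∘ res` reduction on the level of norm indices

`Q` a finite group of order `p` acting on `B' ⊇ B` (think `B = C^N`, `B' = C^{N ∩ M}` for a normal
subgroup `M` of index `d` prime to `p`), with an equivariant "trace" `t : B' → B` restricting to
multiplication by `d` on `B`.  Then a `Q`-norm from `B'` which lies in `B^Q` is a `Q`-norm from
`B`.  Hence `B^Q / N_Q B` embeds in `B'^Q / N_Q B'`. -/

variable {Q : Type*} [Group Q] [Fintype Q] {B' : Type*} [AddCommGroup B'] [DistribMulAction Q B']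

theorem norm_index_descent (B : AddSubgroup B')
    (t : B' →+ B') (ht : ∀ b, t b ∈ B) (htg : ∀ (g : Q) (b : B'), t (g • b) = g • t b)
    (d : ℕ) (htd : ∀ b ∈ B, t b = d • b) (hd : Nat.Coprime d (Fintype.card Q))
    (c : B') (hc : c ∈ B) (hfix : ∀ g : Q, g • c = c)
    (z : B') (hz : ∑ g : Q, g • z = c) :
    ∃ w ∈ B, ∑ g : Q, g • w = c := by
  -- `d • c = t c = ∑ g • t z` and `|Q| • c = ∑ g • c`
  have h1 : d • c = ∑ g : Q, g • t z := by
    rw [← htd c hc, ← hz, map_sum]
    exact Finset.sum_congr rfl fun g _ => htg g z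
  have h2 : (Fintype.card Q) • c = ∑ g : Q, g • c := by
    rw [Finset.sum_congr rfl fun g _ => hfix g, Finset.sum_const, Finset.card_univ]
  -- Bezout
  obtain ⟨u, v, huv⟩ : ∃ u v : ℤ, u * d + v * Fintype.card Q = 1 := by
    have := Nat.isCoprime_iff_coprime.mpr hd
    obtain ⟨u, v, h⟩ := this
    exact ⟨u, v, by exact_mod_cast h⟩
  refine ⟨u • t z + v • c, B.add_mem (B.zsmul_mem (ht z) u) (B.zsmul_mem hc v), ?_⟩
  have h3 : ∑ g : Q, g • (u • t z + v • c) = u • ∑ g : Q, g • t z + v • ∑ g : Q, g • c := by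
    simp only [smul_add, Finset.sum_add_distrib, Finset.smul_sum]
    congr 1 <;> exact Finset.sum_congr rfl fun g _ => (smul_comm _ _ _)
  rw [h3, ← h1, ← h2]
  calc u • d • c + v • Fintype.card Q • c = (u * d + v * Fintype.card Q) • c := by
        rw [add_smul, mul_smul, mul_smul]
        simp only [natCast_zsmul]
    _ = c := by rw [huv, one_smul]

end Descent

end Fermat.Agent.S55.SecondIneq74
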