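/-
S55 / 32-SECOND-INEQ (helper74), for (B3) of 32c-B: THE KUMMER LAYER OF A ROOT, in the `fixK`
vocabulary of `SecondInst53.Assembly`.

`K ≤ L` inside `ℚ̄`, `L/ℚ` finite normal, `ζ ∈ K` a primitive `p`-th root of unity, `β ∈ L` with
`β ^ p = x ∈ K`, `x` not a `p`-th power in `K`.  Then `H := fixK L K` (`= Gal(L/K)`) and
`N := kummerStab β := {h ∈ H | h β = β}` (`= Gal(L/K(β))`) form a cyclic layer of order `p`:
`N` is normal in `H` and `Nat.card (H ⧸ N) = p`.  (This is the layer at which `FI` applies the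
first inequality, with `L = kummerLevel p L₀ x`.)
-/
import Mathlib
import Fermat.Agent.S55.SecondInst53.Assembly

set_option autoImplicit false
set_option linter.unusedSectionVars false

noncomputable section

namespace Fermat.Agent.S55.SecondIneq74.LayerOfRoot

open Fermat.Agent.S55.Idele73.Basic Fermat.Agent.S55.SecondInst53.Assembly

variable (L : IntermediateField ℚ Qbar) [Normal ℚ L] [FiniteDimensional ℚ L]
variable (K : IntermediateField ℚ Qbar) (hKL : K ≤ L)

/-- Galois correspondence in `fixK` vocabulary: elements of `L` fixed by `Gal(L/K)` lie in `K`. -/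
theorem exists_incl_eq_of_fixK (y : L) (hy : ∀ s ∈ fixK L K hKL, s y = y) :
    ∃ x : K, incl L K hKL x = y := by
  have : IsGalois ℚ L := ⟨⟩
  set K' : IntermediateField ℚ L := IntermediateField.restrict hKL with hK'
  have h1 : y ∈ IntermediateField.fixedField (IntermediateField.fixingSubgroup K') := by
    rw [IntermediateField.mem_fixedField_iff]
    intro s hs
    apply hy s
    intro x
    exact (IntermediateField.mem_fixingSubgroup_iff K' s).mp hs _
      ((IntermediateField.mem_restrict hKL _).mpr x.2)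
  rw [IsGalois.fixedField_fixingSubgroup K'] at h1
  have h3 : (y : Qbar) ∈ K := (IntermediateField.mem_restrict hKL _).mp h1
  exact ⟨⟨_, h3⟩, rfl⟩

variable {L K} {p : ℕ} [hp : Fact p.Prime]

section chi

variable {ζ : K} (hζ : IsPrimitiveRoot ζ p) {β : L} (hβ0 : β ≠ 0) {x : K}
  (hβ : β ^ p = incl L K hKL x)

omit [Normal ℚ L] [FiniteDimensional ℚ L] in
include hζ in
/-- `Gal(L/K)` fixes the `p`-th roots of unity of `L`. -/
theorem fixK_apply_root_of_unity {η : L} (hη : η ^ p = 1) {h : GalL L} (hh : h ∈ fixK L K hKL) :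
    h η = η := by
  have hζL : IsPrimitiveRoot (incl L K hKL ζ) p :=
    hζ.map_of_injective (incl L K hKL).injective
  obtain ⟨i, -, rfl⟩ := hζL.eq_pow_of_pow_eq_one hη
  rw [map_pow, hh ζ]

omit [Normal ℚ L] [FiniteDimensional ℚ L] hp in
include hβ0 hβ in
theorem div_pow_eq_one {h : GalL L} (hh : h ∈ fixK L K hKL) : (h β / β) ^ p = 1 := by
  rw [div_pow, ← map_pow, hβ, hh x]
  exact div_self (by rw [← hβ]; exact pow_ne_zero _ hβ0)

/-- the Kummer character `h ↦ h β / β` of `Gal(L/K)`. -/
def chi : fixK L K hKL →* Lˣ where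
  toFun h := Units.mk0 ((h : GalL L) β / β)
    (div_ne_zero ((map_ne_zero _).mpr hβ0) hβ0)
  map_one' := by
    apply Units.ext
    simp [div_self hβ0]
  map_mul' := by
    intro h h'
    apply Units.ext
    simp only [Units.val_mk0, Units.val_mul, Subgroup.coe_mul, AlgEquiv.mul_apply]
    -- `h (h' β) = h (χ h' * β) = χ h' * h β`
    have h1 : (h' : GalL L) β = ((h' : GalL L) β / β) * β := by
      field_simp
    have h2 : (h : GalL L) ((h' : GalL L) β / β) = (h' : GalL L) β / β :=
      fixK_apply_root_of_unity hKL hζ (div_pow_eq_one hKL hβ0 hβ h'.2) h.2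
    calc (h : GalL L) ((h' : GalL L) β) / β
        = (h : GalL L) (((h' : GalL L) β / β) * β) / β := by rw [← h1]
      _ = ((h' : GalL L) β / β) * (h : GalL L) β / β := by rw [map_mul, h2]
      _ = (h : GalL L) β / β * ((h' : GalL L) β / β) := by ring

theorem chi_apply (h : fixK L K hKL) :
    ((chi hKL hζ hβ0 hβ h : Lˣ) : L) = (h : GalL L) β / β := rfl

theorem mem_ker_chi_iff (h : fixK L K hKL) :
    h ∈ (chi hKL hζ hβ0 hβ).ker ↔ (h : GalL L) β = β := by
  rw [MonoidHom.mem_ker, Units.ext_iff, chi_apply, Units.val_one, div_eq_one_iff_eq hβ0]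

theorem range_chi_le : (chi hKL hζ hβ0 hβ).range ≤ rootsOfUnity p L := by
  rintro _ ⟨h, rfl⟩
  rw [mem_rootsOfUnity]
  apply Units.ext
  rw [Units.val_pow_eq_pow_val, chi_apply, Units.val_one]
  exact div_pow_eq_one hKL hβ0 hβ h.2

end chi

/-- the stabiliser of `β` in `Gal(L/K)`: `Gal(L/K(β))` as a subgroup of `fixK L K`. -/
def kummerStab (β : L) : Subgroup (fixK L K hKL) where
  carrier := {h | (h : GalL L) β = β}
  one_mem' := rfl
  mul_mem' := by
    intro a b ha hb
    simp only [Set.mem_ofPred_eq, Subgroup.coe_mul, AlgEquiv.mul_apply] at ha hb ⊢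
    rw [hb, ha]
  inv_mem' := by
    intro a ha
    simp only [Set.mem_ofPred_eq, Subgroup.coe_inv] at ha ⊢
    rw [AlgEquiv.aut_inv]
    exact (AlgEquiv.symm_apply_eq _).mpr ha.symm

omit [Normal ℚ L] [FiniteDimensional ℚ L] in
theorem mem_kummerStab {β : L} {h : fixK L K hKL} :
    h ∈ kummerStab hKL β ↔ (h : GalL L) β = β := Iff.rfl

variable {ζ : K} (hζ : IsPrimitiveRoot ζ p) {β : L} (hβ0 : β ≠ 0) {x : K}
  (hβ : β ^ p = incl L K hKL x)

include hζ hβ0 hβ in
theorem kummerStab_eq_ker : kummerStab hKL β = (chi hKL hζ hβ0 hβ).ker := by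
  ext h
  rw [mem_kummerStab, mem_ker_chi_iff]

include hζ hβ0 hβ in
/-- `Gal(L/K(β))` is normal in `Gal(L/K)`. -/
theorem kummerStab_normal : (kummerStab hKL β).Normal := by
  rw [kummerStab_eq_ker hKL hζ hβ0 hβ]
  exact MonoidHom.normal_ker _

include hζ hβ0 hβ in
/-- **the Kummer layer has order `p`** when `x` is not a `p`-th power in `K`. -/
theorem card_quot_kummerStab (hx : ¬ ∃ y : K, y ^ p = x) :
    Nat.card (fixK L K hKL ⧸ kummerStab hKL β) = p := by
  have hζL : IsPrimitiveRoot (incl L K hKL ζ) p :=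
    hζ.map_of_injective (incl L K hKL).injective
  have : NeZero p := ⟨hp.out.ne_zero⟩
  have hcardμ : Nat.card (rootsOfUnity p L) = p := hζL.card_rootsOfUnity
  set χ := chi hKL hζ hβ0 hβ with hχ
  -- quotient by the kernel = range
  have e1 : Nat.card (fixK L K hKL ⧸ kummerStab hKL β) = Nat.card χ.range := by
    rw [kummerStab_eq_ker hKL hζ hβ0 hβ]
    exact Nat.card_congr (QuotientGroup.quotientKerEquivRange χ).toEquiv
  rw [e1]
  have hdvd : Nat.card χ.range ∣ p := by
    rw [← hcardμ]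
    exact Subgroup.card_dvd_of_le (range_chi_le hKL hζ hβ0 hβ)
  rcases (Nat.dvd_prime hp.out).mp hdvd with h1 | h1
  · -- trivial range: `β` is fixed by `Gal(L/K)`, hence in `K`
    exfalso
    have htriv : χ.range = ⊥ := Subgroup.card_eq_one.mp h1
    have hfix : ∀ s ∈ fixK L K hKL, s β = β := by
      intro s hs
      have : χ ⟨s, hs⟩ ∈ χ.range := ⟨_, rfl⟩
      rw [htriv, Subgroup.mem_bot] at this
      exact (mem_ker_chi_iff hKL hζ hβ0 hβ ⟨s, hs⟩).mp this
    obtain ⟨y, hy⟩ := exists_incl_eq_of_fixK L K hKL β hfix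
    apply hx
    refine ⟨y, ?_⟩
    apply (incl L K hKL).injective
    change incl L K hKL (y ^ p) = incl L K hKL x
    rw [map_pow, hy, hβ]
  · exact h1

end Fermat.Agent.S55.SecondIneq74.LayerOfRoot
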