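/-
S55 / 32-SECOND-INEQ (helper74), sub-leaf 32c-B-LEVEL: the KUMMER LEVEL used by `FI`.

`L` a level (finite normal over `ℚ`, unramified outside `S ∋ p`), `x ∈ Lˣ` which at every place
outside `S` is a unit up to `p`-th powers of `L`.  Then
`kummerLevel p L x := L ⊔ ℚ(all β with β ^ p a conjugate of x)` is again a level: finite, normal over
`ℚ`, unramified outside `S`, and contains every `p`-th root of `x`.

(For `FI`: `x ∈ K = L^H`, `S'' = S ∪ {primes below P}`; `M = K(x^{1/p}) ⊆ kummerLevel p L x`.)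
Imports Mathlib + `UnrKummer72` (Prelude vocabulary `IsUnramifiedOutside`, `LiesOverPrime`).
-/
import Mathlib
import Fermat.Agent.S55.UnrKummer72

set_option autoImplicit false

open IntermediateField Polynomial
open scoped Pointwise

noncomputable section

namespace Fermat.Agent.S55.SecondIneq74.KummerLevel

/-- `ℚ̄` -/
abbrev Qb : Type := AlgebraicClosure ℚ

/-- `G_ℚ` -/
abbrev GQ : Type := Qb ≃ₐ[ℚ] Qb

theorem isAlgebraicQb : Algebra.IsAlgebraic ℚ Qb := AlgebraicClosure.isAlgebraic ℚ

attribute [local instance] isAlgebraicQb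

theorem isAlgClosureQb : IsAlgClosure ℚ Qb := ⟨inferInstance, inferInstance⟩

attribute [local instance] isAlgClosureQb

theorem normalQb : Normal ℚ Qb := IsAlgClosure.normal ℚ Qb

attribute [local instance] normalQb

/-- the two `ℚ`-algebra structures on an intermediate field agree -/
theorem algebra_rat_eq (M : IntermediateField ℚ Qb) :
    (DivisionRing.toRatAlgebra : Algebra ℚ M) = IntermediateField.algebra' M :=
  Subsingleton.elim _ _

/-- `normal_sup` in the `[Normal ℚ L]` spelling used throughout S55 -/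
theorem normal_sup_rat (L E : IntermediateField ℚ Qb) [h1 : Normal ℚ L] [h2 : Normal ℚ E] :
    Normal ℚ (L ⊔ E : IntermediateField ℚ Qb) := by
  rw [algebra_rat_eq] at h1 h2 ⊢
  exact IntermediateField.normal_sup ℚ Qb L E

section Transport

theorem valuation_eq_one_iff_mem (A : ValuationSubring Qb) {y : Qb} (hy : y ≠ 0) :
    A.valuation y = 1 ↔ y ∈ A ∧ y⁻¹ ∈ A := by
  rw [← A.valuation_le_one_iff, ← A.valuation_le_one_iff, map_inv₀]
  constructor
  · intro h
    rw [h]; simp
  · rintro ⟨h1, h2⟩
    have hv : A.valuation y ≠ 0 := (A.valuation.ne_zero_iff).mpr hy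
    have h3 : 1 ≤ A.valuation y := by
      have := (inv_le_one₀ (zero_lt_iff.mpr hv)).mp h2
      exact this
    exact le_antisymm h1 h3

theorem smul_mem_smul_iff (σ : GQ) (A : ValuationSubring Qb) (y : Qb) :
    σ y ∈ σ • A ↔ y ∈ A := by
  have : σ y = σ • y := rfl
  rw [this]
  exact ValuationSubring.smul_mem_pointwise_smul_iff

/-- Galois transport of `valuation = 1` -/
theorem valuation_smul_eq_one_iff (σ : GQ) (A : ValuationSubring Qb) {y : Qb} (hy : y ≠ 0) :
    (σ • A).valuation (σ y) = 1 ↔ A.valuation y = 1 := by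
  have hσy : σ y ≠ 0 := (map_ne_zero σ).mpr hy
  rw [valuation_eq_one_iff_mem _ hσy, valuation_eq_one_iff_mem _ hy, ← map_inv₀,
    smul_mem_smul_iff, smul_mem_smul_iff]

/-- Galois transport of `LiesOverPrime` -/
theorem liesOverPrime_smul_of (σ : GQ) {A : ValuationSubring Qb} {q : ℕ}
    (hA : A.LiesOverPrime q) : (σ • A).LiesOverPrime q := by
  unfold ValuationSubring.LiesOverPrime at hA ⊢
  rw [ValuationSubring.mem_nonunits_iff] at hA ⊢
  -- `valuation < 1` transported
  have hq : σ (q : Qb) = (q : Qb) := map_natCast σ q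
  by_cases h0 : (q : Qb) = 0
  · rw [h0, map_zero]; exact zero_lt_one
  · rw [← hq]
    have h1 : (σ • A).valuation (σ (q : Qb)) ≤ 1 := by
      rw [(σ • A).valuation_le_one_iff, smul_mem_smul_iff, ← A.valuation_le_one_iff]
      exact hA.le
    refine lt_of_le_of_ne h1 fun h => ?_
    rw [valuation_smul_eq_one_iff σ A h0] at h
    exact hA.ne h

end Transport

variable (p : ℕ) [hp : Fact p.Prime]

/-- the polynomial whose roots are the `p`-th roots of the conjugates of `x` -/
def kummerPoly (x : Qb) : ℚ[X] := (minpoly ℚ x).comp (X ^ p)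

theorem kummerPoly_ne_zero (x : Qb) : kummerPoly p x ≠ 0 := by
  have hint : IsIntegral ℚ x := (AlgebraicClosure.isAlgebraic ℚ).isIntegral.isIntegral x
  have hm : (minpoly ℚ x).Monic := minpoly.monic hint
  have hp0 : 0 < p := hp.out.pos
  have hXp : (X ^ p : ℚ[X]).natDegree = p := natDegree_X_pow p
  intro h
  have := congrArg Polynomial.natDegree h
  rw [kummerPoly, natDegree_comp, hXp, natDegree_zero] at this
  have hd : 0 < (minpoly ℚ x).natDegree := minpoly.natDegree_pos hint
  have : (minpoly ℚ x).natDegree * p ≠ 0 := Nat.mul_ne_zero hd.ne' hp0.ne'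
  contradiction

theorem mem_rootSet_kummerPoly_iff (x β : Qb) :
    β ∈ (kummerPoly p x).rootSet Qb ↔ aeval (β ^ p) (minpoly ℚ x) = 0 := by
  rw [mem_rootSet, kummerPoly]
  constructor
  · rintro ⟨_, h⟩
    rwa [aeval_comp, aeval_X_pow] at h
  · intro h
    refine ⟨?_, by rwa [aeval_comp, aeval_X_pow]⟩
    exact kummerPoly_ne_zero p x

/-- the `p`-th power of a root of `kummerPoly` is a Galois conjugate of `x` -/
theorem exists_conj_of_mem_rootSet {x β : Qb} (hβ : β ∈ (kummerPoly p x).rootSet Qb) :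
    ∃ σ : GQ, σ x = β ^ p := by
  have hint : IsIntegral ℚ x := (AlgebraicClosure.isAlgebraic ℚ).isIntegral.isIntegral x
  have h := (mem_rootSet_kummerPoly_iff p x β).mp hβ
  have hconj : IsConjRoot ℚ x (β ^ p) := isConjRoot_of_aeval_eq_zero hint h
  obtain ⟨σ, hσ⟩ := (isConjRoot_iff_exists_algEquiv.mp hconj.symm)
  exact ⟨σ, hσ⟩

/-- the Kummer level `L(√[p]{conjugates of x})` -/
def kummerLevel (L : IntermediateField ℚ Qb) (x : Qb) : IntermediateField ℚ Qb :=
  L ⊔ IntermediateField.adjoin ℚ ((kummerPoly p x).rootSet Qb)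

omit hp in
theorem le_kummerLevel (L : IntermediateField ℚ Qb) (x : Qb) : L ≤ kummerLevel p L x :=
  le_sup_left

/-- every `p`-th root of `x` lies in the Kummer level -/
theorem root_mem_kummerLevel (L : IntermediateField ℚ Qb) {x β : Qb} (hβ : β ^ p = x) :
    β ∈ kummerLevel p L x := by
  apply (le_sup_right : _ ≤ kummerLevel p L x)
  apply IntermediateField.subset_adjoin
  rw [mem_rootSet_kummerPoly_iff, hβ]
  exact minpoly.aeval ℚ x

instance normal_kummerLevel (L : IntermediateField ℚ Qb) [Normal ℚ L] (x : Qb) :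
    Normal ℚ (kummerLevel p L x) := by
  have h1 : Normal ℚ (IntermediateField.adjoin ℚ ((kummerPoly p x).rootSet Qb)) := by
    have h2 := IntermediateField.adjoin_rootSet_isSplittingField (K := ℚ) (L := Qb)
      (p := kummerPoly p x) (IsAlgClosed.splits _)
    rw [algebra_rat_eq]
    exact Normal.of_isSplittingField (hFEp := h2) (kummerPoly p x)
  unfold kummerLevel
  exact normal_sup_rat L _

variable {p}

/-- elements of a normal `L` have all their conjugates in `L` -/
theorem conj_mem_of_normal (L : IntermediateField ℚ Qb) [hL : Normal ℚ L] {x : Qb} (hx : x ∈ L)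
    (σ : GQ) : σ x ∈ L := by
  rw [algebra_rat_eq] at hL
  have := IntermediateField.normal_iff_forall_map_le'.mp hL σ
  exact this ⟨x, hx, rfl⟩

variable {S : Finset Nat.Primes}

/-- **the Kummer level is unramified outside `S`**: `x ∈ L`, `x ≠ 0`, and at every valuation
subring of `ℚ̄` over a prime outside `S`, `x` is a unit up to the `p`-th power of an element of
`L`. -/
theorem isUnramifiedOutside_kummerLevel (hpS : ExtCitation.pPrime p ∈ S)
    (L : IntermediateField ℚ Qb) [Normal ℚ L] (hL : L.IsUnramifiedOutside S)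
    {x : Qb} (hxL : x ∈ L) (hx0 : x ≠ 0)
    (hloc : ∀ q : Nat.Primes, q ∉ S → ∀ A : ValuationSubring Qb, A.LiesOverPrime (q : ℕ) →
      ∃ γ : Qb, γ ∈ L ∧ γ ≠ 0 ∧ A.valuation (x / γ ^ p) = 1) :
    (kummerLevel p L x).IsUnramifiedOutside S := by
  classical
  have hfin : ((kummerPoly p x).rootSet Qb).Finite := rootSet_finite _ _
  -- induction over finite subsets of the root set
  have key : ∀ T : Finset Qb, (↑T : Set Qb) ⊆ (kummerPoly p x).rootSet Qb →
      (L ⊔ IntermediateField.adjoin ℚ (↑T : Set Qb)).IsUnramifiedOutside S := by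
    intro T
    induction T using Finset.induction_on with
    | empty =>
      intro _
      rw [Finset.coe_empty, IntermediateField.adjoin_empty, sup_bot_eq]
      exact hL
    | insert β T hβT ih =>
      intro hsub
      have hT : (↑T : Set Qb) ⊆ (kummerPoly p x).rootSet Qb := fun y hy =>
        hsub (by rw [Finset.coe_insert]; exact Set.mem_insert_of_mem _ hy)
      have hβ : β ∈ (kummerPoly p x).rootSet Qb :=
        hsub (by rw [Finset.coe_insert]; exact Set.mem_insert _ _)
      have hF := ih hT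
      obtain ⟨σ, hσ⟩ := exists_conj_of_mem_rootSet p hβ
      have hβL : β ^ p ∈ L := hσ ▸ conj_mem_of_normal L hxL σ
      have hstep := UnrKummer72.isUnramifiedOutside_adjoin_root (p := p) hpS hF
        (β := β) ((le_sup_left : L ≤ _) hβL) ?_
      · have e : L ⊔ IntermediateField.adjoin ℚ (↑(insert β T) : Set Qb) =
            (L ⊔ IntermediateField.adjoin ℚ (↑T : Set Qb)) ⊔ ℚ⟮β⟯ := by
          rw [Finset.coe_insert, Set.insert_eq, Set.union_comm,
            IntermediateField.adjoin_union, sup_assoc]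
        rw [e]; exact hstep
      · intro q hq A hA
        -- transport the hypothesis for `x` at `σ⁻¹ • A`
        obtain ⟨γ, hγL, hγ0, hu⟩ := hloc q hq (σ⁻¹ • A) (liesOverPrime_smul_of σ⁻¹ hA)
        refine ⟨σ γ, (le_sup_left : L ≤ _) (conj_mem_of_normal L hγL σ),
          (map_ne_zero σ).mpr hγ0, ?_⟩
        have hy0 : x / γ ^ p ≠ 0 := div_ne_zero hx0 (pow_ne_zero _ hγ0)
        have h1 := (valuation_smul_eq_one_iff σ (σ⁻¹ • A) hy0).mpr hu
        rw [smul_inv_smul] at h1
        rw [← hσ, ← map_pow, ← map_div₀]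
        exact h1
  have := key hfin.toFinset (by rw [Set.Finite.coe_toFinset])
  rwa [Set.Finite.coe_toFinset] at this

/-- **32c-B-LEVEL**: packaged form. -/
theorem exists_kummer_level (hpS : ExtCitation.pPrime p ∈ S)
    (L : IntermediateField ℚ Qb) [Normal ℚ L] (hL : L.IsUnramifiedOutside S)
    {x : Qb} (hxL : x ∈ L) (hx0 : x ≠ 0)
    (hloc : ∀ q : Nat.Primes, q ∉ S → ∀ A : ValuationSubring Qb, A.LiesOverPrime (q : ℕ) →
      ∃ γ : Qb, γ ∈ L ∧ γ ≠ 0 ∧ A.valuation (x / γ ^ p) = 1) :
    ∃ L' : IntermediateField ℚ Qb, L ≤ L' ∧ Normal ℚ L' ∧ FiniteDimensional ℚ L' ∧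
      L'.IsUnramifiedOutside S ∧ ∀ β : Qb, β ^ p = x → β ∈ L' := by
  have h := isUnramifiedOutside_kummerLevel hpS L hL hxL hx0 hloc
  exact ⟨kummerLevel p L x, le_kummerLevel p L x, inferInstance, h.1, h,
    fun β hβ => root_mem_kummerLevel p L hβ⟩

end Fermat.Agent.S55.SecondIneq74.KummerLevel
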