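/-
S55 / 32-SECOND-INEQ (helper74), sub-leaf 32c-B-LEVEL, part 2: the Kummer level of `FI` in the
vocabulary of the place model `SecondInst53.PlaceModel`.

`K ≤ L` inside `ℚ̄`, `L` an `S`-level, `D : PlaceData K`, `x : Kˣ`, `P` a finite set of places of `K`
with the hypothesis of `SecondIneq74.FI`:
  `∀ v ∉ P, ι_v x ∈ Pw v ∨ (v tame ∧ ι_v x ∈ U v)`,
and `S` containing `p` and the residue characteristics of the finite places in `P`.  Then at every
valuation subring of `ℚ̄` over a prime outside `S`, `x` is a unit up to a `p`-th power of an element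
of `K` (`hloc_of_FI_hyp`), hence `kummerLevel p L x ⊇ K(x^{1/p})` is again an `S`-level
(`exists_level_of_FI_hyp`).
-/
import Mathlib
import Fermat.Agent.S55.SecondIneq74.KummerLevel
import Fermat.Agent.S55.SecondInst30.Dense
import Fermat.Agent.S55.PlaceCount50.Dict
import Fermat.Agent.S55.UnrBridge42.Global

set_option autoImplicit false

open IsDedekindDomain NumberField
open scoped Pointwise

noncomputable section

namespace Fermat.Agent.S55.SecondIneq74.LevelFI

open Fermat.Agent.S55.SecondInst53.PlaceModel Fermat.Agent.S55.SecondIneq74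
  Fermat.Agent.S55.SecondIneq74.KummerLevel

/-- the embedding `K → PadicAlgCl q` attached to `s ∈ G_ℚ`: `y ↦ ι_q (s⁻¹ y)` -/
def embOf (q : ℕ) [Fact q.Prime] (K : IntermediateField ℚ Qb) (s : GQ) : K →+* PadicAlgCl q :=
  ((padicEmbedding q).toRingHom.comp ((s⁻¹ : GQ) : Qb →+* Qb)).comp K.val.toRingHom

theorem embOf_apply (q : ℕ) [Fact q.Prime] (K : IntermediateField ℚ Qb) (s : GQ) (y : K) :
    embOf q K s y = padicEmbedding q (s⁻¹ (y : Qb)) := rfl

/-- valuation one at `s • padicPlace q` is norm one under `ι_q ∘ s⁻¹` -/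
theorem valuation_smul_padicPlace_eq_one_iff (q : ℕ) [Fact q.Prime] (s : GQ) {y : Qb}
    (hy : y ≠ 0) :
    (s • padicPlace q).valuation y = 1 ↔ ‖padicEmbedding q (s⁻¹ y)‖ = 1 := by
  have hy' : s⁻¹ y ≠ 0 := (map_ne_zero _).mpr hy
  have h1 := valuation_smul_eq_one_iff s (padicPlace q) hy'
  have e : s (s⁻¹ y) = y := by
    change (s * s⁻¹) y = y
    rw [mul_inv_cancel]; rfl
  rw [e] at h1
  rw [h1, valuation_eq_one_iff_mem _ hy', UnrBridge42.mem_padicPlace_iff_norm,
    UnrBridge42.mem_padicPlace_iff_norm, map_inv₀, norm_inv]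
  have hn : 0 < ‖padicEmbedding q (s⁻¹ y)‖ :=
    norm_pos_iff.mpr ((map_ne_zero _).mpr hy')
  constructor
  · rintro ⟨h2, h3⟩
    exact le_antisymm h2 ((inv_le_one₀ hn).mp h3)
  · intro h
    rw [h]; simp

variable {p : ℕ} [Fact p.Prime]

omit [Fact p.Prime] in
/-- **`hloc` of `KummerLevel` from the hypothesis of `FI`**, in the place model. -/
theorem hloc_of_FI_hyp (K : IntermediateField ℚ Qb) [FiniteDimensional ℚ K] [NumberField K]
    (D : PlaceData K) (x : Kˣ) (P : Finset (V K))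
    (hx : ∀ v, v ∉ P → ι D v x ∈ Pw (A D) p v ∨ (v ∈ tame (K := K) p ∧ ι D v x ∈ U D v))
    (S : Finset Nat.Primes)
    (hP : ∀ v : HeightOneSpectrum (𝓞 K), Sum.inl v ∈ P →
      (⟨D.ℓ v, (D.prime v).out⟩ : Nat.Primes) ∈ S) :
    ∀ q : Nat.Primes, q ∉ S → ∀ A : ValuationSubring Qb, A.LiesOverPrime (q : ℕ) →
      ∃ γ : Qb, γ ∈ K ∧ γ ≠ 0 ∧ A.valuation (((x : K) : Qb) / γ ^ p) = 1 := by
  intro q hq A hA
  have : Fact (q : ℕ).Prime := ⟨q.2⟩
  obtain ⟨s, hs⟩ := UnrBridge42.exists_smul_eq_of_liesOverPrime q.2 (padicPlace (q : ℕ)) A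
    (UnrBridge42.liesOverPrime_padicPlace (q : ℕ)) hA
  subst hs
  set j : K →+* PadicAlgCl (q : ℕ) := embOf (q : ℕ) K s with hj
  set v : HeightOneSpectrum (𝓞 K) := PlaceCount50.primeOf (q : ℕ) K j with hv
  -- the residue characteristic of `v` is `q`
  have hℓ : (q : ℕ) = D.ℓ v := by
    refine PlaceCount50.eq_of_natCast_mem (q : ℕ) K (q' := D.ℓ v) (P := v.asIdeal)
      v.isPrime.ne_top ?_ (D.natCast_mem v)
    exact PlaceCount50.natCast_mem_primeOf j
  have hvP : (Sum.inl v : V K) ∉ P := by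
    intro h
    apply hq
    have := hP v h
    have e : (⟨D.ℓ v, (D.prime v).out⟩ : Nat.Primes) = q := Subtype.ext hℓ.symm
    rwa [e] at this
  -- translate `valuation = 1` at `A` for elements of `K`
  have key : ∀ y : K, y ≠ 0 → v.valuation K y = 1 →
      (s • padicPlace (q : ℕ)).valuation ((y : K) : Qb) = 1 := by
    intro y hy hval
    have hy' : ((y : K) : Qb) ≠ 0 := fun h => hy (Subtype.ext h)
    rw [valuation_smul_padicPlace_eq_one_iff (q : ℕ) s hy']
    have := (PlaceCount50.valuation_primeOf_eq_one_iff j y).mp hval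
    rwa [hj, embOf_apply] at this
  have hx0 : (x : K) ≠ 0 := x.ne_zero
  rcases hx (Sum.inl v) hvP with hpw | ⟨-, hu⟩
  · -- `x` is a local `p`-th power
    obtain ⟨b, hb⟩ := hpw
    change (D.locField v)ˣ at b
    change b ^ p = ιf D v x at hb
    obtain ⟨γ, hγ⟩ := SecondInst30.Dense.exists_norm_eq D v b
    refine ⟨((γ : K) : Qb), (γ : K).2, fun h => γ.ne_zero (Subtype.ext h), ?_⟩
    have hval : v.valuation K ((x : K) / (γ : K) ^ p) = 1 := by
      rw [D.eq_one_iff, map_div₀, map_pow, norm_div, norm_pow, hγ]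
      have h1 : ‖D.σ v (x : K)‖ = ‖((b : D.locField v) : PadicAlgCl (D.ℓ v))‖ ^ p := by
        have h2 := congrArg (fun u : (D.locField v)ˣ =>
          ‖((u : D.locField v) : PadicAlgCl (D.ℓ v))‖) hb
        simp only [Units.val_pow_eq_pow_val, SubmonoidClass.coe_pow, norm_pow] at h2
        rw [h2]; rfl
      rw [h1]
      have hb0 : ‖((b : D.locField v) : PadicAlgCl (D.ℓ v))‖ ≠ 0 := by
        rw [norm_ne_zero_iff]
        intro h
        exact b.ne_zero (Subtype.ext h)
      exact div_self (pow_ne_zero _ hb0)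
    have hne : (x : K) / (γ : K) ^ p ≠ 0 := div_ne_zero hx0 (pow_ne_zero _ γ.ne_zero)
    have := key _ hne hval
    simpa using this
  · -- `x` is a local unit
    refine ⟨1, K.one_mem, one_ne_zero, ?_⟩
    have hval : v.valuation K (x : K) = 1 := (ι_inl_mem_U_iff D v x).mp hu
    have := key _ hx0 hval
    simpa using this

variable {S : Finset Nat.Primes}

/-- **32c-B-LEVEL, place-model form**: under the hypothesis of `FI` on `(x, P)`, the Kummer level
`kummerLevel p L x` is an `S`-level containing all `p`-th roots of `x`. -/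
theorem exists_level_of_FI_hyp (hpS : ExtCitation.pPrime p ∈ S)
    (K L : IntermediateField ℚ Qb) [FiniteDimensional ℚ K] [NumberField K] (hKL : K ≤ L)
    [Normal ℚ L] (hL : L.IsUnramifiedOutside S)
    (D : PlaceData K) (x : Kˣ) (P : Finset (V K))
    (hx : ∀ v, v ∉ P → ι D v x ∈ Pw (A D) p v ∨ (v ∈ tame (K := K) p ∧ ι D v x ∈ U D v))
    (hP : ∀ v : HeightOneSpectrum (𝓞 K), Sum.inl v ∈ P →
      (⟨D.ℓ v, (D.prime v).out⟩ : Nat.Primes) ∈ S) :
    L ≤ kummerLevel p L ((x : K) : Qb) ∧ Normal ℚ (kummerLevel p L ((x : K) : Qb)) ∧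
      (kummerLevel p L ((x : K) : Qb)).IsUnramifiedOutside S ∧
      ∀ β : Qb, β ^ p = ((x : K) : Qb) → β ∈ kummerLevel p L ((x : K) : Qb) := by
  have hx0 : ((x : K) : Qb) ≠ 0 := fun h => x.ne_zero (Subtype.ext h)
  have hloc := hloc_of_FI_hyp K D x P hx S hP
  refine ⟨le_kummerLevel p L _, inferInstance, ?_, fun β hβ => root_mem_kummerLevel p L hβ⟩
  refine isUnramifiedOutside_kummerLevel hpS L hL (hKL (x : K).2) hx0 ?_
  intro q hq A hA
  obtain ⟨γ, hγK, hγ0, h⟩ := hloc q hq A hA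
  exact ⟨γ, hKL hγK, hγ0, h⟩

end Fermat.Agent.S55.SecondIneq74.LevelFI
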