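/-
S55 / 32-SECOND-INEQ (helper74): ELEMENTWISE semi-local norm lemmas for coinduced modules
(`Representation.coindV`), for the bridge (BL) of 32c.

Setting: `φ : Γ →* G` (`Γ = Gal(ℚ̄_q/ℚ_q)`, `G = Gal(L/ℚ)`), `σ : Representation k Γ A`
(`A = Additive (ℚ̄_q)ˣ`), `H ≤ G` (`= Gal(L/K)`), `N ⊴ H` (`= Gal(L/M)`), `H ⧸ N` finite.
Functions `f ∈ coindV φ σ` (`f (φ γ * x) = σ γ (f x)`) with `G` acting by right translation.
The NORM of the layer `(H ⧸ N, (coind)^N)` is `x ↦ ∑ c : H ⧸ N, z (x * r c)` for any system of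
representatives `r`.  A place of `K` above `q` is a double coset `φ(Γ) x₀ H`.

* `norm_of_invariant`        (BL)(1) : `H`-invariant `f` ⟹ norm of `f` is `|H ⧸ N| • f`.
* `exists_norm_of_split`     (BL)(2) : `x₀⁻¹ φ(Γ) x₀ ∩ H ⊆ N` (the place splits completely) ⟹ every
  `H`-invariant `f` supported on `φ(Γ) x₀ H` is the norm of an `N`-invariant `z`.
* `exists_norm_of_local_norm` (BL)(3) : if the decomposition group of the place surjects onto `H ⧸ N`
  (one place above) and `f x₀ = ∑ c, σ (γs c) w` is a LOCAL norm of a `Γ_N`-fixed `w`, then `f` is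
  the norm of an `N`-invariant `z` (with `z x₀ = w`).
* `exists_norm_of_local_norm_cyclic` : the same with the local norm written `∑ i < n, σ (γ₀ ^ i) w`.
* `indicator_mem` : cutting an invariant coinduced function down to a double coset.
Mathlib only.
-/
import Mathlib

set_option autoImplicit false

namespace Fermat.Agent.S55.SecondIneq74.CoindNorm

open Representation

variable {k Γ G A : Type*} [CommRing k] [Group Γ] [Group G] [AddCommGroup A] [Module k A]
  (φ : Γ →* G) (σ : Representation k Γ A) (H : Subgroup G) (N : Subgroup H)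

/-- right-invariance under `H` -/
def RInvH (f : G → A) : Prop := ∀ (x : G) (h : H), f (x * (h : G)) = f x

/-- right-invariance under `N ≤ H` -/
def RInvN (f : G → A) : Prop := ∀ (x : G) (n : N), f (x * ((n : H) : G)) = f x

/-- the double coset `φ(Γ) x₀ H` -/
def dcH (x₀ : G) : Set G := {x | ∃ (γ : Γ) (h : H), x = φ γ * x₀ * (h : G)}

/-- the double coset `φ(Γ) x₀ N` -/
def dcN (x₀ : G) : Set G := {x | ∃ (γ : Γ) (n : N), x = φ γ * x₀ * ((n : H) : G)}

variable {φ σ H N}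

omit [AddCommGroup A] in
theorem RInvH.rInvN {f : G → A} (hf : RInvH H f) : RInvN H N f := fun x n => hf x n

theorem dcN_subset_dcH (x₀ : G) : dcN φ H N x₀ ⊆ dcH φ H x₀ := by
  rintro x ⟨γ, n, rfl⟩
  exact ⟨γ, n, rfl⟩

theorem mem_dcH_self (x₀ : G) : x₀ ∈ dcH φ H x₀ := ⟨1, 1, by simp⟩

theorem mem_dcN_self (x₀ : G) : x₀ ∈ dcN φ H N x₀ := ⟨1, 1, by simp⟩

theorem smul_mem_dcH_iff (x₀ : G) (δ : Γ) (x : G) : φ δ * x ∈ dcH φ H x₀ ↔ x ∈ dcH φ H x₀ := by
  constructor
  · rintro ⟨γ, h, hx⟩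
    refine ⟨δ⁻¹ * γ, h, ?_⟩
    rw [map_mul, map_inv, mul_assoc, mul_assoc, ← mul_assoc (φ γ), ← hx]; group
  · rintro ⟨γ, h, rfl⟩
    exact ⟨δ * γ, h, by rw [map_mul]; group⟩

theorem smul_mem_dcN_iff (x₀ : G) (δ : Γ) (x : G) :
    φ δ * x ∈ dcN φ H N x₀ ↔ x ∈ dcN φ H N x₀ := by
  constructor
  · rintro ⟨γ, n, hx⟩
    refine ⟨δ⁻¹ * γ, n, ?_⟩
    rw [map_mul, map_inv, mul_assoc, mul_assoc, ← mul_assoc (φ γ), ← hx]; group
  · rintro ⟨γ, n, rfl⟩
    exact ⟨δ * γ, n, by rw [map_mul]; group⟩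

theorem mul_mem_dcH_iff (x₀ : G) (x : G) (h : H) :
    x * (h : G) ∈ dcH φ H x₀ ↔ x ∈ dcH φ H x₀ := by
  constructor
  · rintro ⟨γ, h', hx⟩
    refine ⟨γ, h' * h⁻¹, ?_⟩
    rw [Subgroup.coe_mul, Subgroup.coe_inv, ← mul_assoc, ← hx]; group
  · rintro ⟨γ, h', rfl⟩
    exact ⟨γ, h' * h, by rw [Subgroup.coe_mul]; group⟩

theorem mul_mem_dcN_iff (x₀ : G) (x : G) (n : N) :
    x * ((n : H) : G) ∈ dcN φ H N x₀ ↔ x ∈ dcN φ H N x₀ := by
  constructor
  · rintro ⟨γ, n', hx⟩
    refine ⟨γ, n' * n⁻¹, ?_⟩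
    rw [Subgroup.coe_mul, Subgroup.coe_mul, Subgroup.coe_inv, Subgroup.coe_inv, ← mul_assoc, ← hx]
    group
  · rintro ⟨γ, n', rfl⟩
    exact ⟨γ, n' * n, by rw [Subgroup.coe_mul, Subgroup.coe_mul]; group⟩

/-- cutting a coinduced function down to a left-`φ(Γ)`-stable set -/
theorem indicator_mem {f : G → A} (hf : f ∈ coindV φ σ) (D : Set G)
    (hD : ∀ (δ : Γ) (x : G), φ δ * x ∈ D ↔ x ∈ D) [DecidablePred (· ∈ D)] :
    (fun x => if x ∈ D then f x else 0) ∈ coindV φ σ := by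
  intro δ x
  by_cases hx : x ∈ D
  · simp only [if_pos hx, if_pos ((hD δ x).mpr hx)]
    exact hf δ x
  · have : ¬ φ δ * x ∈ D := fun h => hx ((hD δ x).mp h)
    simp only [if_neg hx, if_neg this, map_zero]

/-- **(BL)(1)** the norm of an `H`-invariant function is `|H ⧸ N|` times the function. -/
theorem norm_of_invariant [Fintype (H ⧸ N)] {f : G → A} (hfH : RInvH H f) (r : H ⧸ N → H)
    (x : G) : ∑ c : H ⧸ N, f (x * ((r c : H) : G)) = Fintype.card (H ⧸ N) • f x := by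
  rw [Finset.sum_congr rfl fun c _ => hfH x (r c), Finset.sum_const, Finset.card_univ]

section Split

variable [N.Normal] [Fintype (H ⧸ N)]

/-- **(BL)(2)** split places: if `x₀⁻¹ φ(Γ) x₀ ∩ H ⊆ N` then every `H`-invariant coinduced function
supported on the double coset `φ(Γ) x₀ H` is the norm of an `N`-invariant coinduced function
(supported on the "sheet" `φ(Γ) x₀ N`). -/
theorem exists_norm_of_split (x₀ : G)
    (hsplit : ∀ (γ : Γ) (h : H), φ γ * x₀ = x₀ * (h : G) → h ∈ N)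
    {f : G → A} (hf : f ∈ coindV φ σ) (hfH : RInvH H f)
    (hsupp : ∀ x, x ∉ dcH φ H x₀ → f x = 0) :
    ∃ z : G → A, z ∈ coindV φ σ ∧ RInvN H N z ∧ (∀ x, x ∉ dcN φ H N x₀ → z x = 0) ∧
      ∀ r : H ⧸ N → H, (∀ c, ((r c : H) : H ⧸ N) = c) →
        ∀ x, ∑ c : H ⧸ N, z (x * ((r c : H) : G)) = f x := by
  classical
  refine ⟨fun x => if x ∈ dcN φ H N x₀ then f x else 0,
    indicator_mem hf _ (smul_mem_dcN_iff x₀), ?_, ?_, ?_⟩
  · intro x n
    by_cases hx : x ∈ dcN φ H N x₀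
    · simp only [if_pos hx, if_pos ((mul_mem_dcN_iff x₀ x n).mpr hx)]
      exact hfH x n
    · have : ¬ x * ((n : H) : G) ∈ dcN φ H N x₀ := fun h => hx ((mul_mem_dcN_iff x₀ x n).mp h)
      simp only [if_neg hx, if_neg this]
  · intro x hx
    simp only [if_neg hx]
  · intro r hr x
    by_cases hx : x ∈ dcH φ H x₀
    · obtain ⟨γ, h, rfl⟩ := hx
      -- the only coset with `x * r c` on the sheet is `c = (mk h)⁻¹`
      have key : ∀ c : H ⧸ N, φ γ * x₀ * (h : G) * ((r c : H) : G) ∈ dcN φ H N x₀ ↔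
          c = ((h : H ⧸ N))⁻¹ := by
        intro c
        constructor
        · rintro ⟨γ', n, hn⟩
          -- `x₀⁻¹ φ(γ'⁻¹ γ) x₀ = n (h r c)⁻¹ ∈ H`, hence in `N`
          have h1 : φ (γ'⁻¹ * γ) * x₀ = x₀ * (((n : H) * (h * r c)⁻¹ : H) : G) := by
            have : φ γ * x₀ = φ γ' * x₀ * ((n : H) : G) * ((h * r c : H) : G)⁻¹ := by
              rw [← hn, Subgroup.coe_mul]; group
            rw [map_mul, map_inv, mul_assoc, this]
            simp only [Subgroup.coe_mul, Subgroup.coe_inv]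
            group
          have h2 := hsplit _ _ h1
          have h3 : (h * r c)⁻¹ ∈ N := by
            have := N.mul_mem (N.inv_mem n.2) h2
            simpa [mul_assoc] using this
          have h4 : h * r c ∈ N := by simpa using N.inv_mem h3
          have h5 : ((h * r c : H) : H ⧸ N) = 1 := (QuotientGroup.eq_one_iff _).mpr h4
          rw [QuotientGroup.mk_mul, hr c] at h5
          exact eq_inv_of_mul_eq_one_right h5
        · intro hc
          have h5 : ((h * r c : H) : H ⧸ N) = 1 := by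
            rw [QuotientGroup.mk_mul, hr c, hc, mul_inv_cancel]
          have h4 : h * r c ∈ N := (QuotientGroup.eq_one_iff _).mp h5
          exact ⟨γ, ⟨h * r c, h4⟩, by rw [Subgroup.coe_mul]; group⟩
      rw [Finset.sum_eq_single ((h : H ⧸ N))⁻¹]
      · dsimp only
        rw [if_pos ((key _).mpr rfl)]
        exact hfH _ _
      · intro c _ hc
        dsimp only
        rw [if_neg (fun hmem => hc ((key c).mp hmem))]
      · intro hc
        exact absurd (Finset.mem_univ _) hc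
    · rw [hsupp x hx]
      apply Finset.sum_eq_zero
      intro c _
      have : ¬ x * ((r c : H) : G) ∈ dcN φ H N x₀ := fun hmem =>
        hx ((mul_mem_dcH_iff x₀ x (r c)).mp (dcN_subset_dcH x₀ hmem))
      dsimp only
      rw [if_neg this]

end Split

section LocalNorm

variable [N.Normal] [Fintype (H ⧸ N)]

/-- **(BL)(3)** one place above: `γs c ∈ Γ` lifts `c ∈ H ⧸ N` through the decomposition group of
the place `x₀` (`φ (γs c) * x₀ = x₀ * h` with `h ↦ c`), `w` is fixed by the decomposition group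
of the upper field (`Γ_N`), and `f x₀ = ∑ c, σ (γs c) w` is the local norm of `w`.  Then `f` is the
norm of an `N`-invariant coinduced function `z` with `z x₀ = w`. -/
theorem exists_norm_of_local_norm (x₀ : G)
    {f : G → A} (hf : f ∈ coindV φ σ) (hfH : RInvH H f)
    (hsupp : ∀ x, x ∉ dcH φ H x₀ → f x = 0)
    (w : A) (hw : ∀ (γ : Γ) (n : N), φ γ * x₀ = x₀ * ((n : H) : G) → σ γ w = w)
    (γs : H ⧸ N → Γ) (hγs : ∀ c, ∃ h : H, (h : H ⧸ N) = c ∧ φ (γs c) * x₀ = x₀ * (h : G))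
    (hloc : f x₀ = ∑ c : H ⧸ N, σ (γs c) w) :
    ∃ z : G → A, z ∈ coindV φ σ ∧ RInvN H N z ∧ (∀ x, x ∉ dcN φ H N x₀ → z x = 0) ∧ z x₀ = w ∧
      ∀ r : H ⧸ N → H, (∀ c, ((r c : H) : H ⧸ N) = c) →
        ∀ x, ∑ c : H ⧸ N, z (x * ((r c : H) : G)) = f x := by
  classical
  -- well-definedness of `φ γ * x₀ * n ↦ σ γ w`
  have hwd : ∀ (γ γ' : Γ) (n n' : N),
      φ γ * x₀ * ((n : H) : G) = φ γ' * x₀ * ((n' : H) : G) → σ γ w = σ γ' w := by
    intro γ γ' n n' h
    have h1 : φ (γ'⁻¹ * γ) * x₀ = x₀ * (((n' * n⁻¹ : N) : H) : G) := by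
      have : φ γ * x₀ = φ γ' * x₀ * ((n' : H) : G) * ((n : H) : G)⁻¹ := by
        rw [← h]; group
      rw [map_mul, map_inv, mul_assoc, this]
      simp only [Subgroup.coe_mul, Subgroup.coe_inv]
      group
    have h2 := hw _ _ h1
    rw [map_mul, Module.End.mul_apply] at h2
    have h3 : σ γ' (σ γ'⁻¹ (σ γ w)) = σ γ' w := by rw [h2]
    rwa [← Module.End.mul_apply, ← map_mul, mul_inv_cancel, map_one, Module.End.one_apply] at h3
  let z : G → A := fun x =>
    if hx : x ∈ dcN φ H N x₀ then σ (Classical.choose hx) w else 0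
  have hz : ∀ (γ : Γ) (n : N), z (φ γ * x₀ * ((n : H) : G)) = σ γ w := by
    intro γ n
    have hx : φ γ * x₀ * ((n : H) : G) ∈ dcN φ H N x₀ := ⟨γ, n, rfl⟩
    simp only [z, dif_pos hx]
    obtain ⟨n', hn'⟩ := Classical.choose_spec hx
    exact (hwd _ _ _ _ hn').symm
  have hz0 : ∀ x, x ∉ dcN φ H N x₀ → z x = 0 := by
    intro x hx
    simp only [z, dif_neg hx]
  refine ⟨z, ?_, ?_, hz0, ?_, ?_⟩
  · intro δ x
    by_cases hx : x ∈ dcN φ H N x₀
    · obtain ⟨γ, n, rfl⟩ := hx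
      have : φ δ * (φ γ * x₀ * ((n : H) : G)) = φ (δ * γ) * x₀ * ((n : H) : G) := by
        rw [map_mul]; group
      rw [this, hz, hz, map_mul, Module.End.mul_apply]
    · rw [hz0 x hx, hz0 _ (fun h => hx ((smul_mem_dcN_iff x₀ δ x).mp h)), map_zero]
  · intro x n
    by_cases hx : x ∈ dcN φ H N x₀
    · obtain ⟨γ, n', rfl⟩ := hx
      have : φ γ * x₀ * ((n' : H) : G) * ((n : H) : G) =
          φ γ * x₀ * (((n' * n : N) : H) : G) := by
        simp only [Subgroup.coe_mul]; group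
      rw [this, hz, hz]
    · rw [hz0 x hx, hz0 _ (fun h => hx ((mul_mem_dcN_iff x₀ x n).mp h))]
  · have := hz 1 1
    simpa using this
  · intro r hr x
    by_cases hx : x ∈ dcH φ H x₀
    · obtain ⟨γ, h, rfl⟩ := hx
      -- reindex by `c' = mk h * c`
      have hterm : ∀ c : H ⧸ N, z (φ γ * x₀ * (h : G) * ((r c : H) : G)) =
          σ γ (σ (γs ((h : H ⧸ N) * c)) w) := by
        intro c
        obtain ⟨h', hh', hγ'⟩ := hγs ((h : H ⧸ N) * c)
        -- `h * r c` and `h'` lie in the same coset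
        have hcos : (h')⁻¹ * (h * r c) ∈ N := by
          rw [← QuotientGroup.eq, hh', QuotientGroup.mk_mul, hr c]
        have : φ γ * x₀ * (h : G) * ((r c : H) : G) =
            φ (γ * γs ((h : H ⧸ N) * c)) * x₀ *
              (((⟨(h')⁻¹ * (h * r c), hcos⟩ : N) : H) : G) := by
          have e1 : φ (γ * γs ((h : H ⧸ N) * c)) * x₀ = φ γ * (x₀ * (h' : G)) := by
            rw [map_mul, mul_assoc, hγ']
          rw [e1]
          simp only [Subgroup.coe_mul, Subgroup.coe_inv]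
          group
        rw [this, hz, map_mul, Module.End.mul_apply]
      have hre : ∑ c : H ⧸ N, σ (γs ((h : H ⧸ N) * c)) w = ∑ c : H ⧸ N, σ (γs c) w :=
        Equiv.sum_comp (Equiv.mulLeft (h : H ⧸ N)) (fun c => σ (γs c) w)
      rw [Finset.sum_congr rfl fun c _ => hterm c, ← map_sum, hre, ← hloc, ← hf γ x₀]
      exact (hfH _ h).symm
    · rw [hsupp x hx]
      apply Finset.sum_eq_zero
      intro c _
      exact hz0 _ fun hmem =>
        hx ((mul_mem_dcH_iff x₀ x (r c)).mp (dcN_subset_dcH x₀ hmem))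

/-- **(BL)(3), cyclic form**: `γ₀ ∈ Γ` with `φ γ₀ * x₀ = x₀ * t`, the class of `t` generating
`H ⧸ N` of order `n`, and `f x₀ = ∑ i < n, σ (γ₀ ^ i) w` (the local norm written with the
Frobenius, as in `LocUnr89`). -/
theorem exists_norm_of_local_norm_cyclic (x₀ : G)
    {f : G → A} (hf : f ∈ coindV φ σ) (hfH : RInvH H f)
    (hsupp : ∀ x, x ∉ dcH φ H x₀ → f x = 0)
    (w : A) (hw : ∀ (γ : Γ) (n : N), φ γ * x₀ = x₀ * ((n : H) : G) → σ γ w = w)
    (γ₀ : Γ) (t : H) (hγ₀ : φ γ₀ * x₀ = x₀ * (t : G))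
    (ht : ∀ c : H ⧸ N, c ∈ Subgroup.zpowers (t : H ⧸ N))
    (hloc : f x₀ = ∑ i ∈ Finset.range (Fintype.card (H ⧸ N)), σ (γ₀ ^ i) w) :
    ∃ z : G → A, z ∈ coindV φ σ ∧ RInvN H N z ∧ (∀ x, x ∉ dcN φ H N x₀ → z x = 0) ∧ z x₀ = w ∧
      ∀ r : H ⧸ N → H, (∀ c, ((r c : H) : H ⧸ N) = c) →
        ∀ x, ∑ c : H ⧸ N, z (x * ((r c : H) : G)) = f x := by
  classical
  set g : H ⧸ N := (t : H ⧸ N) with hg
  have hord : orderOf g = Fintype.card (H ⧸ N) := by
    rw [← Nat.card_eq_fintype_card]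
    exact orderOf_eq_card_of_forall_mem_zpowers ht
  have hpow : ∀ i : ℕ, φ (γ₀ ^ i) * x₀ = x₀ * ((t ^ i : H) : G) := by
    intro i
    induction i with
    | zero => simp
    | succ i ih =>
      rw [pow_succ, map_mul, mul_assoc, hγ₀, ← mul_assoc, ih, pow_succ, Subgroup.coe_mul,
        mul_assoc]
  -- the exponent function
  have hex : ∀ c : H ⧸ N, ∃ i : ℕ, i < Fintype.card (H ⧸ N) ∧ g ^ i = c := by
    intro c
    have hc := ht c
    rw [Subgroup.mem_zpowers_iff] at hc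
    obtain ⟨m, hm⟩ := hc
    have hpos : 0 < orderOf g := by
      rw [hord]; exact Fintype.card_pos
    refine ⟨(m % (orderOf g : ℤ)).toNat, ?_, ?_⟩
    · rw [← hord]
      have h1 : m % (orderOf g : ℤ) < orderOf g := Int.emod_lt_of_pos _ (by exact_mod_cast hpos)
      have h0 : 0 ≤ m % (orderOf g : ℤ) := Int.emod_nonneg _ (by exact_mod_cast hpos.ne')
      omega
    · have h0 : 0 ≤ m % (orderOf g : ℤ) := Int.emod_nonneg _ (by exact_mod_cast hpos.ne')
      rw [← zpow_natCast, Int.toNat_of_nonneg h0, zpow_mod_orderOf, hm]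
  choose e he_lt he using hex
  have hinj : Function.Injective e := by
    intro c c' h
    rw [← he c, ← he c', h]
  refine exists_norm_of_local_norm x₀ hf hfH hsupp w hw (fun c => γ₀ ^ e c) ?_ ?_
  · intro c
    exact ⟨t ^ e c, by rw [QuotientGroup.mk_pow, ← hg, he], hpow _⟩
  · rw [hloc]
    -- reindex `range n` by `e`
    symm
    have hbij : Finset.image e Finset.univ = Finset.range (Fintype.card (H ⧸ N)) := by
      apply Finset.eq_of_subset_of_card_le
      · intro i hi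
        obtain ⟨c, _, rfl⟩ := Finset.mem_image.mp hi
        exact Finset.mem_range.mpr (he_lt c)
      · rw [Finset.card_range, Finset.card_image_of_injective _ hinj, Finset.card_univ]
    rw [← hbij, Finset.sum_image (fun c _ c' _ h => hinj h)]

end LocalNorm

end Fermat.Agent.S55.SecondIneq74.CoindNorm
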