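/-
S55 / 32-SECOND-INEQ (helper74), step (B3) of 32c-B: **`FI` FROM THE FIRST INEQUALITY**.

`FI_of_firstIneq`: for a number field `K ⊆ L` (`L` an `S`-level, `ζ_p ∈ K`), the hypothesis `FI` of
the abstract second inequality `SecondIneq74.relIndex_sup_dvd` on the place model of `K` follows
from
* `h31` : the first inequality (31-OUT) `FirstIneqOut (CS h') ⊤ p` at all bigger levels `L' ⊇ L`,
  `S' ⊇ S`;
* `hpsi` : the assembly map `Ψ` of 32c-B (`SecondInst53.Output.exists_psi`, literal shape) at those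
  levels.
Route: for `x ∉ Kˣᵖ` and `P` as in `FI`: `S' := S ∪ {residue characteristics of P}`,
`L' := kummerLevel p L x` (`LevelFI`), `β ∈ L'` with `β ^ p = x`, `N := kummerStab β ⊴ fixK L' K` of
index `p` (`LayerOfRoot`); `Ψ` maps onto `Pair.H0` of the layer, which has `p * |H1| ≥ p > 1`
elements by `h31`; conclude with (the `P`-variant of) `Glue.FI_of_first_hom`.
-/
import Mathlib
import Fermat.Agent.S55.SecondIneq74.Glue
import Fermat.Agent.S55.SecondIneq74.LevelFI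
import Fermat.Agent.S55.SecondIneq74.LayerOfRoot
import Fermat.Agent.S55.Adapt77.HcycGlue
import Fermat.Agent.S55.IdeleVal44.Class
import Fermat.Agent.S55.UnrBridge42.IdeleAdapter

set_option autoImplicit false
set_option linter.unusedSectionVars false
set_option linter.style.haveILetI false

open IsDedekindDomain NumberField

noncomputable section

namespace Fermat.Agent.S55.SecondIneq74.FIStep

open Fermat.Agent.S55.SecondIneq74 Fermat.Agent.S55.Herbrand54

section Abstract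

variable {K : Type*} [Field K] {V : Type*} (A : V → Type*) [∀ v, CommGroup (A v)]
  (ι : ∀ v, Kˣ →* A v) (U : ∀ v, Subgroup (A v)) (p : ℕ)

/-- the `P`-variant of `Glue.FI_of_first_hom`: the homomorphism `Ψ` may depend on the finite set
`P` and use the hypothesis of `FI` on `(x, P)`. -/
theorem FI_of_first_hom' (hfin : ∀ x : Kˣ, {v | ι v x ∉ U v}.Finite) (tame : Set V)
    (hfirst : ∀ (x : Kˣ) (P : Finset V), x ∉ PK (K := K) p →
      (∀ v, v ∉ P → ι v x ∈ Pw A p v ∨ (v ∈ tame ∧ ι v x ∈ U v)) →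
      ∃ (Q : Type) (_ : Group Q) (Ψ : idele A U →* Q),
        (∃ y, Ψ y ≠ 1) ∧ (∀ c : Kˣ, Ψ ⟨diag A ι c, hfin c⟩ = 1) ∧
        ∀ y : idele A U,
          (∀ v, y.1 v ∈ Pw A p v ∨ ι v x ∈ Pw A p v ∨ (v ∈ tame ∧ ι v x ∈ U v ∧ y.1 v ∈ U v)) →
          Ψ y = 1) :
    FI A ι U p tame := by
  intro x P hx hgen
  by_contra hxK
  obtain ⟨Q, _, Ψ, ⟨y₀, hy₀⟩, hdiag, hloc⟩ := hfirst x P hxK hx
  apply hy₀
  obtain ⟨c, hcP, hcU⟩ := hgen y₀.1 y₀.2
  set dc : idele A U := ⟨diag A ι c, hfin c⟩ with hdc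
  have h1 : Ψ (y₀ * dc) = 1 := by
    apply hloc
    intro v
    by_cases hvP : v ∈ P
    · exact Or.inl (hcP v hvP)
    · by_cases hxv : ι v x ∈ Pw A p v
      · exact Or.inr (Or.inl hxv)
      · rcases hx v hvP with h | ⟨ht, hu⟩
        · exact absurd h hxv
        · exact Or.inr (Or.inr ⟨ht, hu, hcU v hvP hxv⟩)
  rw [map_mul, hdiag c, mul_one] at h1
  exact h1

end Abstract

/-- a Herbrand pair with `q = p ≥ 2` has non-trivial `H0`. -/
theorem exists_ne_zero_of_q {M : Type*} [AddCommGroup M] (P : Pair M) {p : ℕ} (hp : 2 ≤ p)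
    (hdef : P.IsDefined) (hq : P.q = p) : ∃ z : P.H0, z ≠ 0 := by
  obtain ⟨h0, h1⟩ := hdef
  by_contra hcon
  push Not at hcon
  have hsub : Subsingleton P.H0 := ⟨fun a b => (hcon a).trans (hcon b).symm⟩
  have hc0 : Nat.card P.H0 = 1 := Nat.card_eq_one_iff_unique.mpr ⟨hsub, ⟨0⟩⟩
  have hc1 : 0 < Nat.card P.H1 := Nat.card_pos
  unfold Pair.q at hq
  rw [hc0, Nat.cast_one, div_eq_iff (by exact_mod_cast hc1.ne')] at hq
  have hq' : (1 : ℚ) = ((p * Nat.card P.H1 : ℕ) : ℚ) := by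
    rw [hq]; push_cast; ring
  have hq'' : 1 = p * Nat.card P.H1 := by exact_mod_cast hq'
  have : 2 ≤ p * Nat.card P.H1 := le_trans hp (Nat.le_mul_of_pos_right p hc1)
  omega

open Fermat.Agent.S55.Idele73.Basic Fermat.Agent.S55.SecondInst53.PlaceModel
  Fermat.Agent.S55.SecondInst53.Assembly Fermat.Agent.S55.IdeleVal44
  Fermat.Agent.S55.Adapt77.HcycGlue Fermat.Agent.S55.SecondIneq74.KummerLevel
  Fermat.Agent.S55.SecondIneq74.LevelFI Fermat.Agent.S55.SecondIneq74.LayerOfRoot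

/-- `UnrOutside` (helper44's integrality hypothesis) for an `S`-level. -/
theorem unrOutside_of_level {S : Finset Nat.Primes} (L : IntermediateField ℚ Qbar) [Normal ℚ L]
    (hL : L.IsUnramifiedOutside S) : UnrOutside L S := by
  intro ℓ hℓ
  have : Fact ℓ.1.Prime := ⟨ℓ.2⟩
  exact UnrBridge42.isUnrAt_locHom ℓ.1 L hL hℓ

variable {K : IntermediateField ℚ Qbar} [FiniteDimensional ℚ K] (D : PlaceData ↥K)
  {p : ℕ} [hp : Fact p.Prime]

/-- the conclusion of `SecondInst53.Output.exists_psi` (literal shape): the assembly map `Ψ` from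
the ideles of the place model onto `Pair.H0` of the layer `(fixK L' K, N)` of `C_{S'}(L')`, killing
the principal ideles and the obvious local norms of `K(a^{1/p})`. -/
def PsiProp (L' : IntermediateField ℚ Qbar) [Normal ℚ L'] [FiniteDimensional ℚ L']
    (hKL' : K ≤ L') {S' : Finset Nat.Primes} (hunr : UnrOutside L' S')
    (N : Subgroup ↥(fixK L' K hKL')) [N.Normal] [Fintype (↥(fixK L' K hKL') ⧸ N)]
    (g : ↥(fixK L' K hKL') ⧸ N) (p : ℕ) (a : (↥K)ˣ) : Prop :=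
  ∃ Ψ : idele (A D) (U D) →* Multiplicative (layerPair (CS hunr) (fixK L' K hKL') N g).H0,
    Function.Surjective Ψ ∧ (∀ c : (↥K)ˣ, Ψ ⟨diag (A D) (ι D) c, hfin D c⟩ = 1) ∧
    ∀ y : idele (A D) (U D),
      (∀ v, y.1 v ∈ Pw (A D) p v ∨ ι D v a ∈ Pw (A D) p v ∨
        (v ∈ tame (K := ↥K) p ∧ ι D v a ∈ U D v ∧ y.1 v ∈ U D v)) → Ψ y = 1

set_option maxHeartbeats 1000000 in
/-- **(B3) `FI` from the first inequality** (with the assembly map `Ψ` of 32c-B as a named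
hypothesis `hpsi`, in the literal shape of `SecondInst53.Output.exists_psi`). -/
theorem FI_of_firstIneq {ζ : ↥K} (hζ : IsPrimitiveRoot ζ p)
    (S : Finset Nat.Primes) (hpS : ExtCitation.pPrime p ∈ S)
    (L : IntermediateField ℚ Qbar) [Normal ℚ L] (hKL : K ≤ L) (hL : L.IsUnramifiedOutside S)
    (h31 : ∀ (S' : Finset Nat.Primes), S ⊆ S' → ∀ (L' : IntermediateField ℚ Qbar) [Normal ℚ L']
      [FiniteDimensional ℚ L'], L ≤ L' → ∀ h' : UnrOutside L' S', FirstIneqOut (CS h') ⊤ p)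
    (hpsi : ∀ (L' : IntermediateField ℚ Qbar) [Normal ℚ L'] [FiniteDimensional ℚ L']
      (hKL' : K ≤ L') {S' : Finset Nat.Primes} (_hS' : S'.Nonempty) (hunr : UnrOutside L' S')
      (N : Subgroup ↥(fixK L' K hKL')) [N.Normal] [Fintype (↥(fixK L' K hKL') ⧸ N)]
      (_hcard : Fintype.card (↥(fixK L' K hKL') ⧸ N) = p) (g : ↥(fixK L' K hKL') ⧸ N)
      (_hg : ∀ x, x ∈ Subgroup.zpowers g) {α ζ' : ↥L'} (_hα0 : α ≠ 0)
      (_hstab : ∀ h : ↥(fixK L' K hKL'), (h : GalL L') α = α ↔ h ∈ N)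
      (_hζ : IsPrimitiveRoot ζ' p) (_hζH : ∀ h : ↥(fixK L' K hKL'), (h : GalL L') ζ' = ζ')
      (a : (↥K)ˣ) (_ha : incl L' K hKL' (a : ↥K) = α ^ p),
      PsiProp D L' hKL' hunr N g p a) :
    FI (A D) (ι D) (U D) p (tame (K := ↥K) p) := by
  classical
  refine FI_of_first_hom' (A D) (ι D) (U D) p (hfin D) _ ?_
  intro x P hxK hx
  -- the enlarged set of primes
  let f : V ↥K → Nat.Primes := fun w =>
    match w with
    | Sum.inl v => ⟨D.ℓ v, (D.prime v).out⟩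
    | Sum.inr _ => ExtCitation.pPrime p
  set S' : Finset Nat.Primes := S ∪ P.image f with hS'
  have hSS' : S ⊆ S' := Finset.subset_union_left
  have hpS' : ExtCitation.pPrime p ∈ S' := hSS' hpS
  have hP : ∀ v : HeightOneSpectrum (𝓞 ↥K), Sum.inl v ∈ P →
      (⟨D.ℓ v, (D.prime v).out⟩ : Nat.Primes) ∈ S' := by
    intro v hv
    exact Finset.mem_union_right _ (Finset.mem_image.mpr ⟨Sum.inl v, hv, rfl⟩)
  have hLS' : L.IsUnramifiedOutside S' := hL.mono hSS'
  -- the Kummer level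
  obtain ⟨hLL', hnorm, hunrL', hroot⟩ :=
    exists_level_of_FI_hyp (p := p) hpS' K L hKL hLS' D x P hx hP
  set L' : IntermediateField ℚ Qbar := kummerLevel p L (((x : (↥K)ˣ) : ↥K) : Qbar) with hL'
  haveI : Normal ℚ L' := hnorm
  haveI : FiniteDimensional ℚ L' := hunrL'.1
  have hKL' : K ≤ L' := hKL.trans hLL'
  have hunr : UnrOutside L' S' := unrOutside_of_level L' hunrL'
  -- a `p`-th root of `x`
  obtain ⟨β₀, hβ₀⟩ := IsAlgClosed.exists_pow_nat_eq (((x : (↥K)ˣ) : ↥K) : Qbar) hp.out.pos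
  have hβmem : β₀ ∈ L' := hroot β₀ hβ₀
  set β : ↥L' := ⟨β₀, hβmem⟩ with hβdef
  have hβ : β ^ p = incl L' K hKL' (x : ↥K) := Subtype.ext hβ₀
  have hx0 : ((x : (↥K)ˣ) : ↥K) ≠ 0 := x.ne_zero
  have hβ0 : β ≠ 0 := by
    intro h
    have : incl L' K hKL' (x : ↥K) = 0 := by rw [← hβ, h, zero_pow hp.out.ne_zero]
    exact hx0 ((map_eq_zero_iff _ (incl L' K hKL').injective).mp this)
  have hnotpow : ¬ ∃ y : ↥K, y ^ p = (x : ↥K) := by
    rintro ⟨y, hy⟩
    have hy0 : y ≠ 0 := by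
      rintro rfl
      rw [zero_pow hp.out.ne_zero] at hy
      exact hx0 hy.symm
    apply hxK
    refine ⟨Units.mk0 y hy0, ?_⟩
    apply Units.ext
    simpa using hy
  -- the layer
  set N := kummerStab hKL' β with hN
  haveI : N.Normal := kummerStab_normal hKL' hζ hβ0 hβ
  have hcardN : Nat.card (↥(fixK L' K hKL') ⧸ N) = p :=
    card_quot_kummerStab hKL' hζ hβ0 hβ hnotpow
  haveI : Finite (↥(fixK L' K hKL') ⧸ N) :=
    Nat.finite_of_card_ne_zero (by rw [hcardN]; exact hp.out.ne_zero)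
  letI : Fintype (↥(fixK L' K hKL') ⧸ N) := Fintype.ofFinite _
  have hcardF : Fintype.card (↥(fixK L' K hKL') ⧸ N) = p := by
    rw [← Nat.card_eq_fintype_card]; exact hcardN
  haveI : IsCyclic (↥(fixK L' K hKL') ⧸ N) := isCyclic_of_prime_card hcardN
  obtain ⟨g, hg⟩ := IsCyclic.exists_generator (α := ↥(fixK L' K hKL') ⧸ N)
  -- the assembly map at this level
  have hS'ne : S'.Nonempty := ⟨_, hpS'⟩
  have hζ' : IsPrimitiveRoot (incl L' K hKL' ζ) p :=
    hζ.map_of_injective (incl L' K hKL').injective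
  obtain ⟨Ψ, hΨsurj, hΨdiag, hΨloc⟩ := hpsi L' hKL' hS'ne hunr N hcardF g hg hβ0
    (fun h => (mem_kummerStab hKL').symm) hζ' (fun h => h.2 ζ) x hβ.symm
  -- non-triviality from the first inequality
  obtain ⟨hdef, hq⟩ := h31 S' hSS' L' hLL' hunr (fixK L' K hKL') le_top N hcardN g hg
  obtain ⟨z, hz⟩ := exists_ne_zero_of_q _ hp.out.two_le hdef hq
  obtain ⟨y, hy⟩ := hΨsurj (Multiplicative.ofAdd z)
  refine ⟨_, inferInstance, Ψ, ⟨y, ?_⟩, hΨdiag, hΨloc⟩
  rw [hy]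
  intro h
  exact hz (Multiplicative.ofAdd.injective h)

end Fermat.Agent.S55.SecondIneq74.FIStep
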